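import Fermat.Agent.Mazur.DiscGalois
import Fermat.Prelude.Def_FLTPrelim_GaloisRep

/-!
# The point of `X₀(p)` of a stable line

The interface between the moduli interpretation of the level `p` field and its users.
-/

set_option autoImplicit false

noncomputable section

namespace FA.Mazur

open ModularCurve AlgebraicCurve FA.Curve FA.CurveRed FA.ModField FA.Level WeierstrassCurve
open WeierstrassCurve.Affine

local notation "Qb" => AlgebraicClosure ℚ
local notation "GQ" => AlgebraicClosure ℚ ≃ₐ[ℚ] AlgebraicClosure ℚ

/-- A stable line of order `p` gives a rational place of level `p` over the invariant of the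
curve; when the line consists of rational points, this place is outside the disc at infinity at
every prime which is not `±1` modulo `p`. -/
def StableLinePlace [Algebra (AlgebraicClosure ℚ) ℂ] (p : ℕ) [Fact p.Prime] : Prop :=
  ∀ (W : WeierstrassCurve ℚ) [W.IsElliptic], W.j ≠ 0 → W.j ≠ 1728 →
    ∀ C : AddSubgroup (W.toAffine⁄Qb).Point, Nat.card C = p →
      (∀ σ : GQ, ∀ P ∈ C, σ • P ∈ C) →
      ∃ v : Place Qb (levelField p Qb),
        (∀ σ : GQ, galAut p Qb σ • v = v) ∧
        HasValue v (upJ (L := Qb) p)⁻¹ (algebraMap ℚ Qb W.j⁻¹) ∧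
        ((∀ σ : GQ, ∀ P ∈ C, σ • P = P) →
          ∀ (l : ℕ) [Fact l.Prime] [Algebra Qb (PadicComplex l)], l ≠ p → ¬ p ∣ l ^ 2 - 1 →
            ∀ t : Param Qb (Cl l), v ≠ discPlace p (isEmbAt_placeAt l) t)

end FA.Mazur

end
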