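import Mathlib

/-!
# The addition theorem for the Weierstrass function

A point off the lattice is determined modulo it by the two functions, as their derivatives are
polynomials in them.  The difference of the two sides of the addition theorem extends to an entire
periodic function vanishing at zero.
-/

set_option autoImplicit false
set_option linter.unusedSectionVars false

noncomputable section

open Filter Topology PeriodPair

namespace FA.Mazur.Weier

set_option maxHeartbeats 1000000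

variable (L : PeriodPair)

theorem analyticAt_dslope_self {f : ℂ → ℂ} {c : ℂ} (hf : AnalyticAt ℂ f c) :
    AnalyticAt ℂ (dslope f c) c := by
  obtain ⟨s, hs, hfs⟩ := hf.exists_mem_nhds_analyticOnNhd
  exact ((Complex.differentiableOn_dslope hs).2 hfs.differentiableOn).analyticAt hs

theorem countable_lattice : (L.lattice : Set ℂ).Countable := by
  haveI : Countable L.lattice := L.latticeEquivProd.injective.countable
  exact Set.to_countable _

theorem preconnected_compl {s : Set ℂ} (hs : s.Countable) : IsPreconnected sᶜ :=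
  (hs.isPathConnected_compl_of_one_lt_rank (by simp)).isConnected.isPreconnected

theorem weierstrassP_eq_principal {z : ℂ} (hz : z ≠ 0) :
    ℘[L] z = ℘[L - (0 : ℂ)] z + 1 / z ^ 2 := by
  have h := L.weierstrassPExcept_add (0 : L.lattice) z
  simp only [ZeroMemClass.coe_zero, sub_zero, ne_eq, OfNat.ofNat_ne_zero, not_false_eq_true,
    zero_pow, div_zero] at h
  exact h.symm

theorem derivWeierstrassP_eq_principal (z : ℂ) :
    ℘'[L] z = ℘'[L - (0 : ℂ)] z - 2 / z ^ 3 := by
  have h := L.derivWeierstrassPExcept_sub (0 : L.lattice) z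
  simp only [ZeroMemClass.coe_zero, sub_zero] at h
  exact h.symm

theorem analyticAt_P {z : ℂ} (hz : z ∉ L.lattice) : AnalyticAt ℂ ℘[L] z :=
  L.analyticOnNhd_weierstrassP z hz

theorem analyticAt_P' {z : ℂ} (hz : z ∉ L.lattice) : AnalyticAt ℂ ℘'[L] z :=
  L.analyticOnNhd_derivWeierstrassP z hz

theorem eventually_notMem {z : ℂ} (hz : z ∉ L.lattice) : ∀ᶠ y in 𝓝 z, y ∉ L.lattice :=
  L.isClosed_lattice.isOpen_compl.mem_nhds hz

/-- Near a lattice point there are no other lattice points. -/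
theorem eventually_notMem_punctured (z : ℂ) : ∀ᶠ y in 𝓝[≠] z, y ∉ L.lattice := by
  filter_upwards [mem_nhdsWithin_of_mem_nhds (L.compl_lattice_sdiff_singleton_mem_nhds z),
    self_mem_nhdsWithin] with y hy hne hmem
  exact hy ⟨hmem, hne⟩

/-- The derivative does not vanish near a lattice point. -/
theorem eventually_deriv_ne_zero : ∀ᶠ y in 𝓝[≠] (0 : ℂ), ℘'[L] y ≠ 0 := by
  have hc : ContinuousAt (fun y => ℘'[L - (0 : ℂ)] y * y ^ 3 - 2) 0 :=
    ((L.analyticAt_derivWeierstrassPExcept 0).continuousAt.mul (continuousAt_id.pow 3)).sub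
      continuousAt_const
  filter_upwards [mem_nhdsWithin_of_mem_nhds (hc.eventually_ne (y := 0) (by simp)),
    self_mem_nhdsWithin] with y hy hne h
  have hy0 : y ≠ 0 := hne
  rw [derivWeierstrassP_eq_principal, sub_eq_zero, eq_div_iff (pow_ne_zero 3 hy0)] at h
  exact hy (sub_eq_zero.2 h)

/-- The second derivative. -/
theorem deriv_derivWeierstrassP {z : ℂ} (hz : z ∉ L.lattice) :
    deriv ℘'[L] z = 6 * ℘[L] z ^ 2 - L.g₂ / 2 := by
  set U : Set ℂ := (L.lattice : Set ℂ)ᶜ
  have hU : IsOpen U := L.isClosed_lattice.isOpen_compl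
  have h1 : AnalyticOnNhd ℂ (deriv ℘'[L]) U := L.analyticOnNhd_derivWeierstrassP.deriv
  have h2 : AnalyticOnNhd ℂ (fun y => 6 * ℘[L] y ^ 2 - L.g₂ / 2) U := fun y hy =>
    ((analyticAt_const.mul ((analyticAt_P L hy).pow 2)).sub analyticAt_const)
  have key : ∀ y ∈ U, ℘'[L] y ≠ 0 → deriv ℘'[L] y = 6 * ℘[L] y ^ 2 - L.g₂ / 2 := by
    intro y hy hne
    have hP : HasDerivAt ℘[L] (℘'[L] y) y := by
      have := (analyticAt_P L hy).differentiableAt.hasDerivAt
      rwa [L.deriv_weierstrassP] at this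
    have hP' := (analyticAt_P' L hy).differentiableAt.hasDerivAt
    have hl := hP'.fun_pow 2
    have hr := (((hP.fun_pow 3).const_mul 4).sub (hP.const_mul L.g₂)).sub_const L.g₃
    have heq : (fun t => ℘'[L] t ^ 2) =ᶠ[𝓝 y]
        fun t => 4 * ℘[L] t ^ 3 - L.g₂ * ℘[L] t - L.g₃ :=
      (eventually_notMem L hy).mono fun t ht => L.derivWeierstrassP_sq t ht
    have h := (hl.congr_of_eventuallyEq heq.symm).unique hr
    refine mul_left_cancel₀ (mul_ne_zero two_ne_zero hne) ?_
    norm_num at h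
    linear_combination h
  obtain ⟨y₀, hy₀, hy₀'⟩ := ((eventually_deriv_ne_zero L).and
    (eventually_notMem_punctured L 0)).exists
  refine h1.eqOn_of_preconnected_of_eventuallyEq h2 (preconnected_compl (countable_lattice L))
    (z₀ := y₀) hy₀' ?_ hz
  filter_upwards [eventually_notMem L hy₀',
    (analyticAt_P' L hy₀').continuousAt.eventually_ne hy₀] with y hy hne
  exact key y hy hne

/-- The functions polynomial in the two. -/
def polyFuns : Subalgebra ℂ (ℂ → ℂ) := Algebra.adjoin ℂ {℘[L], ℘'[L]}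

theorem exists_deriv_eq {f : ℂ → ℂ} (hf : f ∈ polyFuns L) :
    ∃ g ∈ polyFuns L, ∀ z ∉ L.lattice, HasDerivAt f (g z) z := by
  have hP : ℘[L] ∈ polyFuns L := Algebra.subset_adjoin (Set.mem_insert _ _)
  have hP' : ℘'[L] ∈ polyFuns L :=
    Algebra.subset_adjoin (Set.mem_insert_of_mem _ (Set.mem_singleton _))
  induction hf using Algebra.adjoin_induction with
  | mem f hf =>
    rcases hf with rfl | rfl
    · refine ⟨℘'[L], hP', fun z hz => ?_⟩
      have := (analyticAt_P L hz).differentiableAt.hasDerivAt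
      rwa [L.deriv_weierstrassP] at this
    · refine ⟨algebraMap ℂ (ℂ → ℂ) 6 * ℘[L] ^ 2 - algebraMap ℂ (ℂ → ℂ) (L.g₂ / 2),
        sub_mem (mul_mem (Subalgebra.algebraMap_mem _ _) (pow_mem hP 2))
          (Subalgebra.algebraMap_mem _ _), fun z hz => ?_⟩
      have := (analyticAt_P' L hz).differentiableAt.hasDerivAt
      rw [deriv_derivWeierstrassP L hz] at this
      exact this
  | algebraMap r => exact ⟨0, zero_mem _, fun z _ => hasDerivAt_const z r⟩
  | add f g _ _ hf hg =>
    obtain ⟨f', hf', h1⟩ := hf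
    obtain ⟨g', hg', h2⟩ := hg
    exact ⟨f' + g', add_mem hf' hg', fun z hz => (h1 z hz).add (h2 z hz)⟩
  | mul f g hfm hgm hf hg =>
    obtain ⟨f', hf', h1⟩ := hf
    obtain ⟨g', hg', h2⟩ := hg
    exact ⟨f' * g + f * g', add_mem (mul_mem hf' hgm) (mul_mem hfm hg'),
      fun z hz => (h1 z hz).mul (h2 z hz)⟩

theorem exists_iteratedDeriv_eq (n : ℕ) :
    ∃ g ∈ polyFuns L, ∀ z ∉ L.lattice, iteratedDeriv n ℘[L] z = g z := by
  induction n with
  | zero => exact ⟨℘[L], Algebra.subset_adjoin (Set.mem_insert _ _), fun z _ => by simp⟩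
  | succ n ih =>
    obtain ⟨g, hg, h⟩ := ih
    obtain ⟨g', hg', h'⟩ := exists_deriv_eq L hg
    refine ⟨g', hg', fun z hz => ?_⟩
    rw [iteratedDeriv_succ]
    have : iteratedDeriv n ℘[L] =ᶠ[𝓝 z] g := (eventually_notMem L hz).mono fun y hy => h y hy
    rw [this.deriv_eq]
    exact (h' z hz).deriv

theorem polyFuns_eq {f : ℂ → ℂ} (hf : f ∈ polyFuns L) {x y : ℂ} (h : ℘[L] x = ℘[L] y)
    (h' : ℘'[L] x = ℘'[L] y) : f x = f y := by
  induction hf using Algebra.adjoin_induction with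
  | mem f hf => rcases hf with rfl | rfl <;> assumption
  | algebraMap r => rfl
  | add f g _ _ hf hg => simp only [Pi.add_apply, hf, hg]
  | mul f g _ _ hf hg => simp only [Pi.mul_apply, hf, hg]

/-- **A point is determined modulo the lattice by the two functions.** -/
theorem sub_mem_of_eq {x y : ℂ} (hx : x ∉ L.lattice) (hy : y ∉ L.lattice)
    (h : ℘[L] x = ℘[L] y) (h' : ℘'[L] x = ℘'[L] y) : y - x ∈ L.lattice := by
  by_contra hd
  set F : ℂ → ℂ := fun t => ℘[L] (x + t) - ℘[L] (y + t)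
  have hxa : AnalyticAt ℂ (fun t => ℘[L] (x + t)) 0 :=
    (analyticAt_P L hx).comp_of_eq (by fun_prop) (add_zero x)
  have hya : AnalyticAt ℂ (fun t => ℘[L] (y + t)) 0 :=
    (analyticAt_P L hy).comp_of_eq (by fun_prop) (add_zero y)
  have hF : ∀ᶠ t in 𝓝 (0 : ℂ), F t = 0 := by
    rw [← analyticOrderAt_eq_top]
    refine ENat.eq_top_iff_forall_ge.2 fun m => ?_
    refine (natCast_le_analyticOrderAt_iff_iteratedDeriv_eq_zero (hxa.fun_sub hya)).2 fun i _ => ?_
    obtain ⟨g, hg, hgi⟩ := exists_iteratedDeriv_eq L i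
    show iteratedDeriv i (fun t => ℘[L] (x + t) - ℘[L] (y + t)) 0 = 0
    rw [iteratedDeriv_fun_sub hxa.contDiffAt hya.contDiffAt, iteratedDeriv_comp_const_add,
      iteratedDeriv_comp_const_add]
    simp only [add_zero, hgi x hx, hgi y hy, polyFuns_eq L hg h h', sub_self]
  set T : Set ℂ := (fun l => l - x) '' (L.lattice : Set ℂ) ∪ (fun l => l - y) '' L.lattice
  have hTc : T.Countable := ((countable_lattice L).image _).union ((countable_lattice L).image _)
  have hmem : ∀ t ∈ Tᶜ, x + t ∉ L.lattice ∧ y + t ∉ L.lattice := fun t ht =>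
    ⟨fun hm => ht (Or.inl ⟨_, hm, add_sub_cancel_left x t⟩),
      fun hm => ht (Or.inr ⟨_, hm, add_sub_cancel_left y t⟩)⟩
  have h0 : (0 : ℂ) ∈ Tᶜ := by
    rintro (⟨l, hl, he⟩ | ⟨l, hl, he⟩) <;> rw [sub_eq_zero] at he <;> subst he
    · exact hx hl
    · exact hy hl
  have hEq : Set.EqOn F 0 Tᶜ :=
    AnalyticOnNhd.eqOn_of_preconnected_of_eventuallyEq
      (fun t ht => ((analyticAt_P L (hmem t ht).1).comp_of_eq (by fun_prop) rfl).fun_sub
        ((analyticAt_P L (hmem t ht).2).comp_of_eq (by fun_prop) rfl))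
      analyticOnNhd_const (preconnected_compl hTc) h0 hF
  -- near the pole of the first function
  have hev : ∀ᶠ e in 𝓝[≠] (0 : ℂ), ℘[L] e = ℘[L] (y - x + e) := by
    filter_upwards [eventually_notMem_punctured L 0,
      mem_nhdsWithin_of_mem_nhds (((continuous_const_add (y - x)).tendsto' 0 (y - x)
        (add_zero _)).eventually (eventually_notMem L hd))] with e he he'
    have ht : e - x ∈ Tᶜ := by
      rintro (⟨l, hl, hle⟩ | ⟨l, hl, hle⟩)
      · exact he (by rwa [show e = l by linear_combination -hle])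
      · exact he' (by rwa [show y - x + e = l by linear_combination -hle])
    have h1 : ℘[L] (x + (e - x)) - ℘[L] (y + (e - x)) = 0 := hEq ht
    rw [add_sub_cancel, sub_eq_zero] at h1
    rw [h1]
    ring_nf
  have hl1 : Tendsto (fun e => ℘[L] e * e ^ 2) (𝓝[≠] 0) (𝓝 1) := by
    have hc : ContinuousAt (fun e => ℘[L - (0 : ℂ)] e * e ^ 2 + 1) 0 :=
      ((L.analyticAt_weierstrassPExcept 0).continuousAt.mul (continuousAt_id.pow 2)).add
        continuousAt_const
    have h1 := hc.tendsto.mono_left (nhdsWithin_le_nhds (s := {(0 : ℂ)}ᶜ))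
    simp only [ne_eq, OfNat.ofNat_ne_zero, not_false_eq_true, zero_pow, mul_zero, zero_add] at h1
    refine h1.congr' ?_
    filter_upwards [self_mem_nhdsWithin] with e he
    have he0 : e ≠ 0 := he
    rw [weierstrassP_eq_principal L he0]
    field_simp
  have hl2 : Tendsto (fun e => ℘[L] (y - x + e) * e ^ 2) (𝓝[≠] 0) (𝓝 0) := by
    have hc : ContinuousAt (fun e => ℘[L] (y - x + e) * e ^ 2) 0 :=
      (((analyticAt_P L hd).continuousAt.comp_of_eq (continuous_const_add _).continuousAt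
        (add_zero _))).mul (continuousAt_id.pow 2)
    simpa using hc.tendsto.mono_left (nhdsWithin_le_nhds (s := {(0 : ℂ)}ᶜ))
  have := tendsto_nhds_unique (hl1.congr' (hev.mono fun e he => by rw [he])) hl2
  exact one_ne_zero this

/-- A point is determined up to sign modulo the lattice by the function. -/
theorem eq_or_eq_neg_of_eq {x y : ℂ} (hx : x ∉ L.lattice) (hy : y ∉ L.lattice)
    (h : ℘[L] x = ℘[L] y) : y - x ∈ L.lattice ∨ y + x ∈ L.lattice := by
  have h2 : ℘'[L] x ^ 2 = ℘'[L] y ^ 2 := by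
    rw [L.derivWeierstrassP_sq x hx, L.derivWeierstrassP_sq y hy, h]
  rcases sq_eq_sq_iff_eq_or_eq_neg.1 h2 with h3 | h3
  · exact Or.inl (sub_mem_of_eq L hx hy h h3)
  · have := sub_mem_of_eq L (x := -x) (fun hm => hx (by simpa using neg_mem hm)) hy
      (by simpa using h) (by simp [h3])
    exact Or.inr (by rwa [sub_neg_eq_add] at this)

/-- The difference of the two sides of the addition theorem. -/
def addDiff (w z : ℂ) : ℂ :=
  ℘[L] (z + w) + ℘[L] z + ℘[L] w - ((℘'[L] z - ℘'[L] w) / (℘[L] z - ℘[L] w)) ^ 2 / 4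

theorem addDiff_add_coe (w z : ℂ) (l : L.lattice) : addDiff L w (z + l) = addDiff L w z := by
  simp only [addDiff, show z + l + w = z + w + l by ring, weierstrassP_add_coe,
    derivWeierstrassP_add_coe]

theorem not_double_mem {w : ℂ} (hw' : ℘'[L] w ≠ 0) : w + w ∉ L.lattice := fun h => hw' (by
  have h1 : ℘'[L] w = ℘'[L] (-w) := by
    conv_lhs => rw [show w = -w + (⟨w + w, h⟩ : L.lattice) by simp]
    rw [derivWeierstrassP_add_coe]
  rw [derivWeierstrassP_neg, CharZero.eq_neg_self_iff] at h1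
  exact h1)

theorem germ_at_zero {w : ℂ} (hw : w ∉ L.lattice) :
    ∃ G : ℂ → ℂ, AnalyticAt ℂ G 0 ∧ (∀ᶠ y in 𝓝[≠] 0, addDiff L w y = G y) ∧ G 0 = 0 := by
  set b := ℘[L] w
  set p' := ℘'[L] w
  set h := ℘[L - (0 : ℂ)]
  set h' := ℘'[L - (0 : ℂ)]
  have hh : AnalyticAt ℂ h 0 := L.analyticAt_weierstrassPExcept 0
  have hh' : AnalyticAt ℂ h' 0 := L.analyticAt_derivWeierstrassPExcept 0
  let num : ℂ → ℂ := fun z => h z * (1 + z ^ 2 * (h z - b)) ^ 2 + 2 * (h z - b) +
    z ^ 2 * (h z - b) ^ 2 + z * (h' z - p') - z ^ 4 * (h' z - p') ^ 2 / 4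
  let den : ℂ → ℂ := fun z => (1 + z ^ 2 * (h z - b)) ^ 2
  have hw0 : AnalyticAt ℂ (fun z => ℘[L] (z + w)) 0 :=
    (analyticAt_P L hw).comp_of_eq (by fun_prop) (zero_add w)
  have hden : AnalyticAt ℂ den 0 := by fun_prop
  have hden0 : den 0 ≠ 0 := by simp [den]
  refine ⟨fun z => ℘[L] (z + w) + b + num z / den z,
    (hw0.fun_add analyticAt_const).fun_add
      ((by fun_prop : AnalyticAt ℂ num 0).fun_div hden hden0), ?_, ?_⟩
  · filter_upwards [self_mem_nhdsWithin,
      mem_nhdsWithin_of_mem_nhds (hden.continuousAt.eventually_ne hden0)] with z hz hd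
    have hz0 : z ≠ 0 := hz
    have hd' : 1 + z ^ 2 * (h z - b) ≠ 0 := fun e => hd (by simp [den, e])
    have hslope : (℘'[L] z - p') / (℘[L] z - b) =
        (-2 + z ^ 3 * (h' z - p')) / (z * (1 + z ^ 2 * (h z - b))) := by
      rw [weierstrassP_eq_principal L hz0, derivWeierstrassP_eq_principal,
        show h' z - 2 / z ^ 3 - p' = (-2 + z ^ 3 * (h' z - p')) / z ^ 3 by field_simp; ring,
        show h z + 1 / z ^ 2 - b = (1 + z ^ 2 * (h z - b)) / z ^ 2 by field_simp; ring]
      field_simp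
    show ℘[L] (z + w) + ℘[L] z + b - ((℘'[L] z - p') / (℘[L] z - b)) ^ 2 / 4 = _
    rw [hslope, weierstrassP_eq_principal L hz0]
    simp only [num, den]
    field_simp
    ring
  · simp only [num, den, h, h', zero_add, weierstrassPExcept_zero]
    simp [b]
    ring

theorem germ_at_self {w : ℂ} (hw : w ∉ L.lattice) (hw' : ℘'[L] w ≠ 0) :
    ∃ G : ℂ → ℂ, AnalyticAt ℂ G w ∧ (∀ᶠ y in 𝓝[≠] w, addDiff L w y = G y) ∧
      G w = ℘[L] (w + w) + 2 * ℘[L] w - ((6 * ℘[L] w ^ 2 - L.g₂ / 2) / ℘'[L] w) ^ 2 / 4 := by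
  set g := dslope ℘[L] w
  set n := dslope ℘'[L] w
  have hg : AnalyticAt ℂ g w := analyticAt_dslope_self (analyticAt_P L hw)
  have hn : AnalyticAt ℂ n w := analyticAt_dslope_self (analyticAt_P' L hw)
  have hg0 : g w = ℘'[L] w := by simp only [g, dslope_same, L.deriv_weierstrassP]
  have hn0 : n w = 6 * ℘[L] w ^ 2 - L.g₂ / 2 := by
    simp only [n, dslope_same, deriv_derivWeierstrassP L hw]
  have hww : AnalyticAt ℂ (fun z => ℘[L] (z + w)) w :=
    (analyticAt_P L (not_double_mem L hw')).comp_of_eq (by fun_prop) rfl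
  refine ⟨fun z => ℘[L] (z + w) + ℘[L] z + ℘[L] w - (n z / g z) ^ 2 / 4,
    ((hww.fun_add (analyticAt_P L hw)).fun_add analyticAt_const).fun_sub
      (((hn.fun_div hg (hg0 ▸ hw')).fun_pow 2).fun_div analyticAt_const (by norm_num : (4 : ℂ) ≠ 0)), ?_, ?_⟩
  · filter_upwards [self_mem_nhdsWithin] with z hz
    have hz0 : z ≠ w := hz
    simp only [g, n, dslope_of_ne _ hz0, slope_def_field]
    rw [addDiff, div_div_div_cancel_right₀ (sub_ne_zero.2 hz0)]
  · simp only [hg0, hn0]; ring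

theorem germ_at_neg {w : ℂ} (hw : w ∉ L.lattice) (hw' : ℘'[L] w ≠ 0) :
    ∃ G : ℂ → ℂ, AnalyticAt ℂ G (-w) ∧ ∀ᶠ y in 𝓝[≠] (-w), addDiff L w y = G y := by
  set c := -w with hc
  have hcL : c ∉ L.lattice := fun h => hw (by simpa [hc] using neg_mem h)
  have hPc : ℘[L] c = ℘[L] w := L.weierstrassP_neg w
  set g := dslope ℘[L] c
  have hg : AnalyticAt ℂ g c := analyticAt_dslope_self (analyticAt_P L hcL)
  have hg0 : g c = -℘'[L] w := by
    simp only [g, dslope_same, L.deriv_weierstrassP, hc, L.derivWeierstrassP_neg]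
  set g₁ := dslope g c
  set d : ℂ → ℂ := fun z => deriv g z - g₁ z
  have hd : AnalyticAt ℂ d c := hg.deriv.fun_sub (analyticAt_dslope_self hg)
  have hd0 : d c = 0 := by simp [d, g₁]
  set k := dslope d c
  have hk : AnalyticAt ℂ k c := analyticAt_dslope_self hd
  have hh : AnalyticAt ℂ (fun z => ℘[L - (0 : ℂ)] (z + w)) c :=
    (L.analyticAt_weierstrassPExcept 0).comp_of_eq (by fun_prop) (by simp [hc])
  have hn : AnalyticAt ℂ (fun z => ℘'[L] z - ℘'[L] w) c :=
    (analyticAt_P' L hcL).fun_sub analyticAt_const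
  refine ⟨fun z => ℘[L - (0 : ℂ)] (z + w) + ℘[L] z + ℘[L] w -
      k z * (℘'[L] z - ℘'[L] w + 2 * g z) / g z ^ 2 / 4,
    ((hh.fun_add (analyticAt_P L hcL)).fun_add analyticAt_const).fun_sub
      (((hk.fun_mul (hn.fun_add (analyticAt_const.fun_mul hg))).fun_div (hg.fun_pow 2)
        (pow_ne_zero 2 (by rw [hg0]; simpa using hw'))).fun_div analyticAt_const (by norm_num : (4 : ℂ) ≠ 0)), ?_⟩
  have hgne : ∀ᶠ z in 𝓝[≠] c, g z ≠ 0 := mem_nhdsWithin_of_mem_nhds
    (hg.continuousAt.eventually_ne (by rw [hg0]; simpa using hw'))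
  filter_upwards [self_mem_nhdsWithin, hgne,
    mem_nhdsWithin_of_mem_nhds hg.eventually_analyticAt] with z hz hgz hgan
  have hzc : z - c ≠ 0 := sub_ne_zero.2 hz
  have hzw : z + w = z - c := by rw [hc, sub_neg_eq_add]
  have hfac : ∀ y, (y - c) * g y = ℘[L] y - ℘[L] w := fun y => by
    rw [← hPc]; exact sub_smul_dslope ℘[L] c y
  have hderiv : ℘'[L] z = g z + (z - c) * deriv g z := by
    have h1 := (((hasDerivAt_id z).sub_const c).mul hgan.differentiableAt.hasDerivAt).add_const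
      (℘[L] w)
    have e : (fun y => (id y - c) * g y + ℘[L] w) = ℘[L] := funext fun y => by
      rw [id, hfac, sub_add_cancel]
    rw [← L.deriv_weierstrassP]
    conv_lhs => rw [← e]
    simpa using h1.deriv
  have hd1 : (z - c) * k z = d z := by
    have := sub_smul_dslope d c z
    rwa [hd0, sub_zero, smul_eq_mul] at this
  have hg1 : (z - c) * g₁ z = g z - g c := sub_smul_dslope g c z
  set E := z - c
  set n := ℘'[L] z - ℘'[L] w
  have hn2 : n - 2 * g z = E * (E * k z) := by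
    rw [hd1]
    simp only [n, d, hderiv]
    linear_combination hg1 - hg0
  show ℘[L] (z + w) + ℘[L] z + ℘[L] w - (n / (℘[L] z - ℘[L] w)) ^ 2 / 4 =
    ℘[L - (0 : ℂ)] (z + w) + ℘[L] z + ℘[L] w - k z * (n + 2 * g z) / g z ^ 2 / 4
  rw [hzw, weierstrassP_eq_principal L hzc, ← hfac z]
  clear_value n
  rw [show z - c = E from rfl] at *
  clear_value E
  field_simp
  linear_combination -(n + 2 * g z) * hn2

theorem exists_germ {w : ℂ} (hw : w ∉ L.lattice) (hw' : ℘'[L] w ≠ 0) (x : ℂ) :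
    ∃ G : ℂ → ℂ, AnalyticAt ℂ G x ∧ ∀ᶠ y in 𝓝[≠] x, addDiff L w y = G y := by
  have shift : ∀ (x₀ : ℂ) (l : L.lattice), x = x₀ + l →
      (∃ G : ℂ → ℂ, AnalyticAt ℂ G x₀ ∧ ∀ᶠ y in 𝓝[≠] x₀, addDiff L w y = G y) →
      ∃ G : ℂ → ℂ, AnalyticAt ℂ G x ∧ ∀ᶠ y in 𝓝[≠] x, addDiff L w y = G y := by
    rintro x₀ l rfl ⟨G, hG, hev⟩
    refine ⟨fun y => G (y - l), hG.comp_of_eq (by fun_prop) (add_sub_cancel_right _ _), ?_⟩
    have ht : Tendsto (fun y : ℂ => y - l) (𝓝[≠] (x₀ + l)) (𝓝[≠] x₀) := by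
      refine tendsto_nhdsWithin_of_tendsto_nhds_of_eventually_within _ ?_ ?_
      · exact ((continuous_sub_right (l : ℂ)).tendsto' _ _ (add_sub_cancel_right _ _)).mono_left
          nhdsWithin_le_nhds
      · filter_upwards [self_mem_nhdsWithin] with y hy
        exact fun e => hy (sub_eq_iff_eq_add.1 e)
    filter_upwards [ht.eventually hev] with y hy
    rw [← hy, ← addDiff_add_coe L w (y - l) l, sub_add_cancel]
  by_cases h0 : x ∈ L.lattice
  · obtain ⟨G, h1, h2, -⟩ := germ_at_zero L hw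
    exact shift 0 ⟨x, h0⟩ (by simp) ⟨G, h1, h2⟩
  by_cases h1 : x - w ∈ L.lattice
  · obtain ⟨G, h2, h3, -⟩ := germ_at_self L hw hw'
    exact shift w ⟨x - w, h1⟩ (by simp) ⟨G, h2, h3⟩
  by_cases h2 : x + w ∈ L.lattice
  · exact shift (-w) ⟨x + w, h2⟩ (by simp) (germ_at_neg L hw hw')
  refine ⟨addDiff L w, ?_, Eventually.of_forall fun _ => rfl⟩
  have hne : ℘[L] x - ℘[L] w ≠ 0 := sub_ne_zero.2 fun h =>
    (eq_or_eq_neg_of_eq L hw h0 h.symm).elim h1 h2
  exact ((((analyticAt_P L h2).comp_of_eq (f := fun y => y + w) (by fun_prop) rfl).fun_add (analyticAt_P L h0)).fun_add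
    analyticAt_const).fun_sub (((((analyticAt_P' L h0).fun_sub analyticAt_const).fun_div
      ((analyticAt_P L h0).fun_sub analyticAt_const) hne).fun_pow 2).fun_div analyticAt_const
        (by norm_num : (4 : ℂ) ≠ 0))

/-- The extension of `addDiff`. -/
def addExt (w x : ℂ) : ℂ := limUnder (𝓝[≠] x) (addDiff L w)

theorem addExt_eq {w x : ℂ} {G : ℂ → ℂ} (hG : ContinuousAt G x)
    (hev : ∀ᶠ y in 𝓝[≠] x, addDiff L w y = G y) : addExt L w x = G x :=
  ((hG.tendsto.mono_left nhdsWithin_le_nhds).congr' (hev.mono fun _ h => h.symm)).limUnder_eq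

theorem addExt_eq_zero {w : ℂ} (hw : w ∉ L.lattice) (hw' : ℘'[L] w ≠ 0) (x : ℂ) :
    addExt L w x = 0 := by
  have hdiff : Differentiable ℂ (addExt L w) := fun x => by
    obtain ⟨G, hG, hev⟩ := exists_germ L hw hw' x
    refine (hG.congr ?_).differentiableAt
    rw [eventually_nhdsWithin_iff] at hev
    filter_upwards [hev.eventually_nhds, hG.eventually_analyticAt] with y hy hyG
    rcases eq_or_ne y x with rfl | hne
    · exact (addExt_eq L hG.continuousAt (eventually_nhdsWithin_iff.2 hy)).symm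
    · refine (addExt_eq L hyG.continuousAt (eventually_nhdsWithin_iff.2 ?_)).symm
      filter_upwards [hy, isOpen_ne.mem_nhds hne] with t ht htx _
      exact ht htx
  have hper : ∀ z, ∀ l ∈ L.lattice, addExt L w (z + l) = addExt L w z := fun z l hl => by
    obtain ⟨G, hG, hev⟩ := exists_germ L hw hw' (z + l)
    rw [addExt_eq L hG.continuousAt hev, addExt_eq L (G := fun y => G (y + l))
      (hG.continuousAt.comp_of_eq (continuous_add_const l).continuousAt rfl) ?_]
    have ht : Tendsto (fun y : ℂ => y + l) (𝓝[≠] z) (𝓝[≠] (z + l)) := by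
      refine tendsto_nhdsWithin_of_tendsto_nhds_of_eventually_within _ ?_ ?_
      · exact ((continuous_add_const l).tendsto' _ _ rfl).mono_left nhdsWithin_le_nhds
      · filter_upwards [self_mem_nhdsWithin] with y hy
        exact fun e => hy (add_right_cancel e)
    filter_upwards [ht.eventually hev] with y hy
    rw [← hy]
    exact (addDiff_add_coe L w y ⟨l, hl⟩).symm
  rw [hdiff.apply_eq_apply_of_bounded (IsZLattice.isCompact_range_of_periodic L.lattice _
    hdiff.continuous hper).isBounded x 0]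
  obtain ⟨G, hG, hev, hG0⟩ := germ_at_zero L hw
  rw [addExt_eq L hG.continuousAt hev, hG0]

/-- **The addition theorem.** -/
theorem weierstrassP_add {z w : ℂ} (hz : z ∉ L.lattice) (hw : w ∉ L.lattice)
    (hw' : ℘'[L] w ≠ 0) (hne : ℘[L] z ≠ ℘[L] w) :
    ℘[L] (z + w) = ((℘'[L] z - ℘'[L] w) / (℘[L] z - ℘[L] w)) ^ 2 / 4 - ℘[L] z - ℘[L] w := by
  have hzw : z + w ∉ L.lattice := fun h => hne (by
    conv_lhs => rw [show z = -w + (⟨z + w, h⟩ : L.lattice) by simp]
    rw [weierstrassP_add_coe, weierstrassP_neg])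
  have ha : AnalyticAt ℂ (addDiff L w) z :=
    ((((analyticAt_P L hzw).comp_of_eq (f := fun y => y + w) (by fun_prop) rfl).fun_add (analyticAt_P L hz)).fun_add
      analyticAt_const).fun_sub (((((analyticAt_P' L hz).fun_sub analyticAt_const).fun_div
        ((analyticAt_P L hz).fun_sub analyticAt_const) (sub_ne_zero.2 hne)).fun_pow 2).fun_div
          analyticAt_const (by norm_num : (4 : ℂ) ≠ 0))
  have h := addExt_eq_zero L hw hw' z
  rw [addExt_eq L ha.continuousAt (Eventually.of_forall fun _ => rfl), addDiff] at h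
  linear_combination h

/-- **The duplication theorem.** -/
theorem weierstrassP_double {w : ℂ} (hw : w ∉ L.lattice) (hw' : ℘'[L] w ≠ 0) :
    ℘[L] (w + w) = ((6 * ℘[L] w ^ 2 - L.g₂ / 2) / ℘'[L] w) ^ 2 / 4 - 2 * ℘[L] w := by
  obtain ⟨G, hG, hev, hGw⟩ := germ_at_self L hw hw'
  have h := addExt_eq_zero L hw hw' w
  rw [addExt_eq L hG.continuousAt hev, hGw] at h
  linear_combination h

/-- The sum form of the addition theorem. -/
theorem weierstrassP_add_sub {z w : ℂ} (hz : z ∉ L.lattice) (hw : w ∉ L.lattice)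
    (hw' : ℘'[L] w ≠ 0) (hne : ℘[L] z ≠ ℘[L] w) :
    ℘[L] (z + w) + ℘[L] (z - w) = (℘'[L] z ^ 2 + ℘'[L] w ^ 2) / (℘[L] z - ℘[L] w) ^ 2 / 2 -
      2 * (℘[L] z + ℘[L] w) := by
  have hwn : -w ∉ L.lattice := fun h => hw (by simpa using neg_mem h)
  have h1 := weierstrassP_add L hz hw hw' hne
  have h2 := weierstrassP_add L hz hwn (by simpa using hw') (by simpa using hne)
  simp only [weierstrassP_neg, derivWeierstrassP_neg, sub_neg_eq_add, ← sub_eq_add_neg] at h2
  rw [h1, h2]
  field_simp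
  ring

end FA.Mazur.Weier

end
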