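import Fermat.Agent.Mazur.Wp.Series
import Fermat.Agent.ModField.JFunction
import Fermat.Prelude.Def_ModularCurve_X0ModL
import Mathlib.NumberTheory.LegendreSymbol.GaussEisensteinLemmas

/-!
# The series of the abscissae on a line

Over any field with a `p`-th root of unity `η`, `uLaurent p η` is the series at infinity of the
abscissa `uFun p (0, b)`, where `η = e(b/p)`, and `serPoly p η` the polynomial of a half line.
-/

set_option autoImplicit false
set_option linter.unusedSectionVars false

noncomputable section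

namespace FA.Mazur.Moduli

open Polynomial FA.ModField FA.Mazur.Wp ModularCurve
open HahnSeries (ofPowerSeries)

/-- Half of the nonzero residues. -/
def half (p : ℕ) : Finset ℕ := Finset.Ico 1 (p / 2).succ

theorem mem_half {p m : ℕ} : m ∈ half p ↔ 1 ≤ m ∧ m ≤ p / 2 := by
  simp [half]

theorem half_cast_ne_zero {p m : ℕ} (hm : m ∈ half p) : ((m : ZMod p) ≠ 0) := by
  rw [Ne, ZMod.natCast_eq_zero_iff]
  obtain ⟨h1, h2⟩ := mem_half.1 hm
  intro h
  have := Nat.le_of_dvd h1 h
  omega

/-- A product over a half line of an even function does not depend on the scale. -/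
theorem prod_half_mul {p : ℕ} [Fact p.Prime] {M : Type*} [CommMonoid M] (f : ZMod p → M)
    (hf : ∀ x, f (-x) = f x) {d : ZMod p} (hd : d ≠ 0) :
    ∏ m ∈ half p, f (d * m) = ∏ m ∈ half p, f m := by
  have h := congrArg (fun s => (s.map fun k : ℕ => f (k : ZMod p)).prod)
    (ZMod.Ico_map_valMinAbs_natAbs_eq_Ico_map_id p d hd)
  simp only [Multiset.map_map, Function.comp_def] at h
  refine Eq.trans ?_ h
  refine Finset.prod_congr rfl fun m _ => ?_
  rcases Int.natAbs_eq ((d * (m : ZMod p)).valMinAbs) with e | e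
  · have := congrArg (fun z : ℤ => (z : ZMod p)) e
    simp only [ZMod.coe_valMinAbs, Int.cast_natCast] at this
    rw [← this]
  · have := congrArg (fun z : ℤ => (z : ZMod p)) e
    simp only [ZMod.coe_valMinAbs, Int.cast_neg, Int.cast_natCast] at this
    exact (hf _).symm.trans (congrArg f (by rw [neg_eq_iff_eq_neg]; exact this))

/-- The expansion of `E₆`. -/
def eisSix : PowerSeries ℤ :=
  PowerSeries.mk fun n => if n = 0 then 1 else -504 * ∑ d ∈ n.divisors, (d : ℤ) ^ 5

theorem hasExp_E6 :
    HasExp (qp 1) (ModularForm.E₆)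
      (ofPowerSeries ℤ ℂ (eisSix.map (Int.castRingHom ℂ))) := by
  refine hasExp_ofPowerSeries fun z => ?_
  have h := ModularForm.hasSum_qExpansion (h := 1) (f := ModularForm.E₆) one_pos
    one_mem_strictPeriods_SL z
  refine h.congr_fun fun n => ?_
  rw [PowerSeries.coeff_map, EisensteinSeries.E_qExpansion_coeff _ ⟨3, rfl⟩,
    eisSix, PowerSeries.coeff_mk]
  simp only [qp, Nat.cast_one]
  congr 1
  split_ifs with hn
  · simp
  · rw [show _root_.bernoulli 6 = 1 / 42 by decide +kernel, ArithmeticFunction.sigma_apply]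
    push_cast
    norm_num

/-- `-E₄ E₆ q / Δ`. -/
def weightPow : PowerSeries ℤ := -(eisenstein4 * eisSix * dedekindEtaUnitInv)

section Series

variable {K : Type*} [Field K] {K' : Type*} [Field K']

/-- The series at infinity of `36 ℘ / (2 π i)²` at the point `b / p`, `η = e(b/p)`. -/
def lineSer (p : ℕ) (η : K) : PowerSeries K :=
  PowerSeries.mk fun N => 36 * xCoeff p 0 η (p * N)

/-- `q` times the series of the abscissa. -/
def uPow (p : ℕ) (η : K) : PowerSeries K :=
  weightPow.map (Int.castRingHom K) * lineSer p η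

/-- The series of the abscissa. -/
def uLaurent (p : ℕ) (η : K) : LaurentSeries K :=
  HahnSeries.single (-1 : ℤ) 1 * ofPowerSeries ℤ K (uPow p η)

/-- The polynomial of a half line. -/
def serPoly (p : ℕ) (η : K) : Polynomial (LaurentSeries K) :=
  ∏ m ∈ half p, (X - C (uLaurent p (η ^ m)))

theorem map_lineSer (f : K →+* K') (p : ℕ) (η : K) :
    PowerSeries.map f (lineSer p η) = lineSer p (f η) := by
  ext N; simp [lineSer, map_xCoeff, map_ofNat]

theorem map_uPow (f : K →+* K') (p : ℕ) (η : K) :
    PowerSeries.map f (uPow p η) = uPow p (f η) := by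
  rw [uPow, map_mul, map_lineSer, uPow]
  congr 1
  ext N
  simp

theorem coeffMap_uLaurent (f : K →+* K') (p : ℕ) (η : K) :
    coeffMap f (uLaurent p η) = uLaurent p (f η) := by
  rw [uLaurent, map_mul, coeffMap_single, coeffMap_ofPowerSeries, map_uPow, map_one, uLaurent]

theorem map_serPoly (f : K →+* K') (p : ℕ) (η : K) :
    (serPoly p η).map (coeffMap f) = serPoly p (f η) := by
  simp only [serPoly, Polynomial.map_prod, Polynomial.map_sub, Polynomial.map_X, Polynomial.map_C,
    coeffMap_uLaurent, map_pow]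

theorem monic_serPoly (p : ℕ) (η : K) : (serPoly p η).Monic :=
  monic_prod_of_monic _ _ fun _ _ => monic_X_sub_C _

theorem natDegree_serPoly (p : ℕ) (η : K) : (serPoly p η).natDegree = (half p).card := by
  rw [serPoly, natDegree_finsetProd_X_sub_C_eq_card]

theorem xCoeff_inv (p : ℕ) {η : K} (hη : η ≠ 0) (N : ℕ) :
    xCoeff p 0 η⁻¹ N = xCoeff p 0 η N := by
  cases N with
  | zero =>
    simp only [xCoeff, dvd_zero, if_true]
    congr 1
    rcases eq_or_ne η 1 with rfl | h1
    · simp
    have : (1 : K) - η ≠ 0 := sub_ne_zero.2 h1.symm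
    have : η - 1 ≠ 0 := sub_ne_zero.2 h1
    field_simp
    ring
  | succ N =>
    simp only [xCoeff, inv_inv, sub_zero, add_zero]
    refine Finset.sum_congr rfl fun x _ => ?_
    split_ifs <;> ring

theorem uLaurent_inv (p : ℕ) {η : K} (hη : η ≠ 0) : uLaurent p η⁻¹ = uLaurent p η := by
  simp only [uLaurent, uPow, lineSer, xCoeff_inv p hη]

theorem pow_eq_of_cast_eq {p : ℕ} {η : K} (hη : η ^ p = 1) {a b : ℕ}
    (h : (a : ZMod p) = b) : η ^ a = η ^ b := by
  rw [pow_eq_pow_mod a hη, pow_eq_pow_mod b hη, (ZMod.natCast_eq_natCast_iff' a b p).1 h]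

theorem serPoly_pow {p : ℕ} [hp : Fact p.Prime] {η : K} (hη : η ^ p = 1) {d : ℕ}
    (hd : ¬ p ∣ d) : serPoly p (η ^ d) = serPoly p η := by
  let F : ZMod p → Polynomial (LaurentSeries K) := fun k => X - C (uLaurent p (η ^ k.val))
  have hη0 : η ≠ 0 := fun h => by simp [h, zero_pow hp.out.ne_zero] at hη
  have hF : ∀ k, F (-k) = F k := fun k => by
    have h1 : η ^ (-k).val = (η ^ k.val)⁻¹ := eq_inv_of_mul_eq_one_left (by
      rw [← pow_add, pow_eq_of_cast_eq hη (b := 0) (by simp [ZMod.natCast_val]), pow_zero])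
    simp only [F, h1, uLaurent_inv p (pow_ne_zero _ hη0)]
  have hd' : (d : ZMod p) ≠ 0 := fun h => hd ((ZMod.natCast_eq_zero_iff d p).1 h)
  have h := prod_half_mul F hF hd'
  refine Eq.trans ?_ (h.trans ?_)
  · refine Finset.prod_congr rfl fun m _ => ?_
    simp only [F, ← pow_mul]
    rw [pow_eq_of_cast_eq hη (b := ((d : ZMod p) * (m : ZMod p)).val) (by simp [ZMod.natCast_val])]
  · refine Finset.prod_congr rfl fun m _ => ?_
    simp only [F]
    rw [pow_eq_of_cast_eq hη (b := m) (by simp [ZMod.natCast_val])]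

/-- Integrality of the series. -/
theorem uPow_coeff_mem (A : Subring K) (p : ℕ) {η : K} (hη : η ∈ A) (hη' : η⁻¹ ∈ A)
    (h1 : (1 - η)⁻¹ ∈ A) (h12 : (12 : K) ≠ 0) (N : ℕ) :
    PowerSeries.coeff N (uPow p η) ∈ A := by
  have hn : ∀ n : ℕ, (n : K) ∈ A := natCast_mem A
  have hz : ∀ n : ℤ, (n : K) ∈ A := intCast_mem A
  have hx : ∀ M, PowerSeries.coeff M (lineSer p η) ∈ A := fun M => by
    simp only [lineSer, PowerSeries.coeff_mk]
    rcases p * M with _ | k
    · simp only [xCoeff, dvd_zero, if_true, mul_add]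
      refine add_mem ?_ ?_
      · rw [show (36 : K) * (1 / 12) = ((3 : ℕ) : K) by field_simp; norm_num]
        exact hn 3
      · rw [div_eq_mul_inv, ← inv_pow]
        exact mul_mem (by simp) (mul_mem hη (pow_mem h1 2))
    · simp only [xCoeff]
      refine mul_mem (by simpa using hn 36) (sum_mem fun x _ => mul_mem (hn _) ?_)
      refine sub_mem (add_mem ?_ ?_) ?_
      · split_ifs
        exacts [pow_mem hη _, zero_mem A]
      · split_ifs
        exacts [pow_mem hη' _, zero_mem A]
      · split_ifs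
        exacts [by simpa using hn 2, zero_mem A]
  rw [uPow, PowerSeries.coeff_mul]
  refine sum_mem fun x _ => mul_mem ?_ (hx _)
  rw [PowerSeries.coeff_map]
  exact hz _

end Series

end FA.Mazur.Moduli

end
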