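import Fermat.Agent.Mazur.Moduli.TorsionFun
import Fermat.Agent.Mazur.Wp.Curve
import Fermat.Agent.Mazur.Moduli.LineSeries
import Fermat.Agent.Level.Gamma0

/-!
# The polynomial of a half line as a family of modular functions
-/

set_option autoImplicit false
set_option linter.unusedSectionVars false
set_option linter.style.haveILetI false

noncomputable section

namespace FA.Mazur.Moduli

open UpperHalfPlane hiding I
open Complex FA.ModField FA.Level FA.Mazur.Wp ModularCurve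
open HahnSeries (ofPowerSeries)
open scoped MatrixGroups Manifold Topology

/-- A function given by a power series in `qp p` is holomorphic. -/
theorem mdiff_of_hasExp {p : ℕ} [NeZero p] {f : ℍ → ℂ} {P : PowerSeries ℂ}
    (h : HasExp (qp p) f (ofPowerSeries ℤ ℂ P)) : MDiff f := by
  have hp : (0 : ℝ) < p := by exact_mod_cast Nat.pos_of_ne_zero (NeZero.ne p)
  have hsum : ∀ z, HasSum (fun n : ℕ => PowerSeries.coeff n P * qp p z ^ n) (f z) := fun z => by
    have h1 := (hasExp_iff_nat (T := qp p) (fun i hi =>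
      ModularCurve.ofPowerSeries_coeff_of_neg _ hi)).1 h z
    simpa [ofPowerSeries_coeff_natCast] using h1
  let g : ℂ → ℂ := fun w => ∑' n : ℕ, PowerSeries.coeff n P * w ^ n
  have hg : DifferentiableOn ℂ g (Metric.ball 0 1) := fun w hw => by
    rw [mem_ball_zero_iff] at hw
    obtain ⟨r, hwr, hr1⟩ := exists_between hw
    have hr0 : 0 < r := (norm_nonneg w).trans_lt hwr
    have hrn : ‖(r : ℂ)‖ < 1 := by rwa [Complex.norm_real, Real.norm_eq_abs, abs_of_pos hr0]
    have him := Function.Periodic.im_invQParam_pos_of_norm_lt_one hp hrn (by exact_mod_cast hr0.ne')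
    have hs := (hsum ⟨_, him⟩).summable
    rw [show qp p ⟨_, him⟩ = (r : ℂ) from
      Function.Periodic.qParam_right_inv hp.ne' (by exact_mod_cast hr0.ne')] at hs
    have hd : DifferentiableOn ℂ g (Metric.ball 0 r) :=
      Complex.differentiableOn_tsum_of_summable_norm
        (u := fun n => ‖PowerSeries.coeff n P * (r : ℂ) ^ n‖) hs.norm
        (fun n => (differentiableOn_id.pow n).const_mul _) Metric.isOpen_ball fun n x hx => by
          rw [mem_ball_zero_iff] at hx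
          simp only [norm_mul, norm_pow, Complex.norm_real, Real.norm_eq_abs, abs_of_pos hr0]
          gcongr
    exact ((hd w (mem_ball_zero_iff.2 hwr)).differentiableAt
      (Metric.isOpen_ball.mem_nhds (mem_ball_zero_iff.2 hwr))).differentiableWithinAt
  rw [UpperHalfPlane.mdifferentiable_iff]
  refine (hg.comp (f := fun z : ℂ => Function.Periodic.qParam (p : ℝ) z)
    (Function.Periodic.differentiable_qParam).differentiableOn fun z hz => ?_).congr fun z hz => ?_
  · exact mem_ball_zero_iff.2 (Function.Periodic.norm_qParam_lt_one hp hz)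
  · show f (UpperHalfPlane.ofComplex z) = g (Function.Periodic.qParam (p : ℝ) z)
    rw [UpperHalfPlane.ofComplex_apply_of_im_pos hz]
    exact ((hsum ⟨z, hz⟩).tsum_eq).symm

theorem hasExp_wFac :
    HasExp (qp 1) wFac (HahnSeries.single (-1 : ℤ) 1 *
      ofPowerSeries ℤ ℂ (weightPow.map (Int.castRingHom ℂ))) := by
  have h := ((hasExp_single (T := qp 1) (-1) 1).mul (qp_ne_zero 1)
    ((hasExp_E4.mul (qp_ne_zero 1) hasExp_E6).mul (qp_ne_zero 1) hasExp_inv_etaUnit)).neg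
  have hL : ofPowerSeries ℤ ℂ (weightPow.map (Int.castRingHom ℂ)) =
      -(ofPowerSeries ℤ ℂ (eisenstein4.map (Int.castRingHom ℂ)) *
        ofPowerSeries ℤ ℂ (eisSix.map (Int.castRingHom ℂ)) *
        ofPowerSeries ℤ ℂ (dedekindEtaUnitInv.map (Int.castRingHom ℂ))) := by
    unfold weightPow
    generalize eisenstein4 = e
    generalize eisSix = e'
    generalize dedekindEtaUnitInv = i
    rw [map_neg, map_mul, map_mul, map_neg, map_mul, map_mul]
  rw [hL, mul_neg]
  convert h using 1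
  funext z
  symm
  have hq : qp 1 z = Function.Periodic.qParam (1 : ℝ) (z : ℂ) := by simp [qp]
  simp only [Pi.neg_apply, Pi.mul_apply, one_mul, zpow_neg_one, wFac]
  rw [ModularForm.discriminant_eq_q_prod, ← hq]
  simp only [ModularForm.eta_q, ← hq]
  rw [(ModularForm.multipliable_one_sub_pow (norm_qp_lt_one 1 z)).tprod_pow 24]
  rw [inv_pow]
  field_simp

theorem mdiff_wFac : MDiff wFac := by
  rw [UpperHalfPlane.mdifferentiable_iff]
  exact (((UpperHalfPlane.mdifferentiable_iff.1 (ModularForm.E₄).holo').mul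
    (UpperHalfPlane.mdifferentiable_iff.1 (ModularForm.E₆).holo')).div
    (UpperHalfPlane.mdifferentiable_iff.1 CuspForm.discriminant.holo')
    (fun z _ => ModularForm.discriminant_ne_zero _)).neg

variable {p : ℕ}

theorem uFun_eq (v : ℤ × ℤ) (τ : ℍ) : uFun p v τ = 36 * (wFac τ * xVal p v.1 v.2 τ) := by
  rw [uFun, scaleU, xVal, show tauPair τ = latPair τ from rfl, show argV p v τ = zPt p v.1 v.2 τ from rfl]
  have hπ : (Real.pi : ℂ) ≠ 0 := ofReal_ne_zero.2 Real.pi_ne_zero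
  rw [tpi, mul_pow, mul_pow, I_sq]
  field_simp
  ring

variable [hp : Fact p.Prime]

theorem not_both {v : ℤ × ℤ} (hv : (v.1 : ZMod p) ≠ 0 ∨ (v.2 : ZMod p) ≠ 0) :
    ¬ ((p : ℤ) ∣ v.1 ∧ (p : ℤ) ∣ v.2) := fun h => by
  rcases hv with h' | h'
  · exact h' ((ZMod.intCast_zmod_eq_zero_iff_dvd _ p).2 h.1)
  · exact h' ((ZMod.intCast_zmod_eq_zero_iff_dvd _ p).2 h.2)

theorem uFun_mem_expFuns {v : ℤ × ℤ} (hv : ¬ ((p : ℤ) ∣ v.1 ∧ (p : ℤ) ∣ v.2)) :
    uFun p v ∈ expFuns p := by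
  have hx := hasExp_xVal (p := p) v.1 v.2 hv
  have hw := hasExp_wFac.comp (U := qp p) id p 1 (fun z => by simp [qp_pow_self])
  have e : uFun p v = fun τ => 36 * (wFac τ * xVal p v.1 v.2 τ) := funext (uFun_eq v)
  rw [e]
  exact ⟨(mdifferentiable_const (c := (36 : ℂ))).mul (mdiff_wFac.mul (mdiff_of_hasExp hx)), _,
    ((hasExp_C 36).mul (qp_ne_zero p) (hw.mul (qp_ne_zero p) hx)).congr (funext fun z => rfl)⟩

theorem hasSum_xVal_zero {b : ℤ} (hb : ¬ (p : ℤ) ∣ b) :
    HasExp (qp 1) (fun τ => 36 * xVal p 0 b τ) (ofPowerSeries ℤ ℂ (lineSer p (eta p b))) := by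
  refine hasExp_ofPowerSeries fun τ => ?_
  have h := (hasExp_iff_nat (T := qp p) (fun i hi =>
    ModularCurve.ofPowerSeries_coeff_of_neg _ hi)).1 (hasExp_xVal (p := p) 0 b (fun h => hb h.2)) τ
  have hinj : Function.Injective (fun n : ℕ => p * n) :=
    mul_right_injective₀ hp.out.ne_zero
  have hout : ∀ N, N ∉ Set.range (fun n : ℕ => p * n) →
      (ofPowerSeries ℤ ℂ (xSer p 0 (eta p b))).coeff (N : ℤ) * qp p τ ^ N = 0 := fun N hN => by
    rw [ofPowerSeries_coeff_natCast, xSer, PowerSeries.coeff_mk]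
    rcases N with _ | k
    · exact absurd ⟨0, mul_zero p⟩ hN
    refine mul_eq_zero_of_left ?_ _
    simp only [xCoeff, sub_zero, add_zero]
    refine Finset.sum_eq_zero fun x hx => ?_
    have hnd : ¬ (p : ℤ) ∣ (x.2 : ℤ) := fun hd => hN (by
      obtain ⟨c, hc⟩ := Int.natCast_dvd_natCast.1 hd
      refine ⟨x.1 * c, ?_⟩
      show p * (x.1 * c) = k + 1
      rw [← (Nat.mem_divisorsAntidiagonal.1 hx).1, hc]
      ring)
    simp [if_neg hnd]
  refine (((hinj.hasSum_iff hout).2 h).mul_left 36).congr_fun fun n => ?_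
  simp only [Function.comp_apply, ofPowerSeries_coeff_natCast, xSer, lineSer, PowerSeries.coeff_mk]
  rw [pow_mul, qp_pow_self]
  ring

theorem hasExp_uFun_zero {b : ℤ} (hb : ¬ (p : ℤ) ∣ b) :
    HasExp (qp 1) (uFun p (0, b)) (uLaurent p (eta p b)) := by
  have e : uFun p (0, b) = wFac * fun τ => 36 * xVal p 0 b τ := funext fun τ => by
    rw [uFun_eq, Pi.mul_apply]; ring
  rw [e, uLaurent, uPow, map_mul, ← mul_assoc]
  exact hasExp_wFac.mul (qp_ne_zero 1) (hasSum_xVal_zero hb)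

theorem eta_natCast (m : ℕ) : eta p (m : ℤ) = eta p 1 ^ m := by
  rw [Wp.eta, Wp.eta, ← Complex.exp_nat_mul]
  congr 1
  push_cast
  ring

/-! ### The polynomial of a half line -/

/-- The polynomial of the half line through `v`. -/
def funPoly (p : ℕ) (v : ℤ × ℤ) (τ : ℍ) : Polynomial ℂ :=
  ∏ m ∈ half p, (Polynomial.X - Polynomial.C (uFun p ((m : ℤ) • v) τ))

theorem rowMul_zsmul (m : ℤ) (v : ℤ × ℤ) (g : SL(2, ℤ)) :
    rowMul (m • v) g = m • rowMul v g := by
  simp only [rowMul, Prod.smul_fst, Prod.smul_snd, smul_eq_mul, Prod.smul_mk]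
  refine Prod.ext ?_ ?_ <;> ring

theorem funPoly_smul (v : ℤ × ℤ) (g : SL(2, ℤ)) (τ : ℍ) :
    funPoly p v (g • τ) = funPoly p (rowMul v g) τ := by
  simp only [funPoly, uFun_smul, rowMul_zsmul]

theorem uFun_congr' {v v' : ℤ × ℤ} (h1 : (v'.1 : ZMod p) = v.1) (h2 : (v'.2 : ZMod p) = v.2)
    (τ : ℍ) : uFun p v' τ = uFun p v τ :=
  uFun_congr ((ZMod.intCast_zmod_eq_zero_iff_dvd _ p).1 (by push_cast; rw [h1, sub_self]))
    ((ZMod.intCast_zmod_eq_zero_iff_dvd _ p).1 (by push_cast; rw [h2, sub_self])) τ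

/-- The polynomial depends only on the line. -/
theorem funPoly_congr {v v' : ℤ × ℤ} {d : ZMod p} (hd : d ≠ 0) (h1 : (v'.1 : ZMod p) = d * v.1)
    (h2 : (v'.2 : ZMod p) = d * v.2) (τ : ℍ) : funPoly p v' τ = funPoly p v τ := by
  let F : ZMod p → Polynomial ℂ := fun k =>
    Polynomial.X - Polynomial.C (uFun p ((k.val : ℤ) • v) τ)
  have hF : ∀ k, F (-k) = F k := fun k => by
    have : uFun p (((-k).val : ℤ) • v) τ = uFun p ((k.val : ℤ) • v) τ := by
      rw [← uFun_neg ((k.val : ℤ) • v)]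
      refine uFun_congr' ?_ ?_ τ <;> simp
    simp only [F, this]
  refine Eq.trans ?_ ((prod_half_mul F hF hd).trans ?_)
  · refine Finset.prod_congr rfl fun m _ => ?_
    refine congrArg (fun c => Polynomial.X - Polynomial.C c) (uFun_congr' ?_ ?_ τ) <;>
      simp [h1, h2] <;> ring
  · refine Finset.prod_congr rfl fun m _ => ?_
    refine congrArg (fun c => Polynomial.X - Polynomial.C c) (uFun_congr' ?_ ?_ τ) <;> simp

theorem not_both_smul {v : ℤ × ℤ} (hv : ¬ ((p : ℤ) ∣ v.1 ∧ (p : ℤ) ∣ v.2)) {m : ℕ}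
    (hm : m ∈ half p) : ¬ ((p : ℤ) ∣ ((m : ℤ) • v).1 ∧ (p : ℤ) ∣ ((m : ℤ) • v).2) := by
  have hpi : Prime (p : ℤ) := Nat.prime_iff_prime_int.1 hp.out
  have hnd : ¬ (p : ℤ) ∣ (m : ℤ) := fun h => half_cast_ne_zero hm
    ((ZMod.natCast_eq_zero_iff m p).2 (Int.natCast_dvd_natCast.1 h))
  rintro ⟨h1, h2⟩
  simp only [Prod.smul_fst, Prod.smul_snd, smul_eq_mul] at h1 h2
  exact hv ⟨(hpi.dvd_or_dvd h1).resolve_left hnd, (hpi.dvd_or_dvd h2).resolve_left hnd⟩

/-- The abscissae on a half line are distinct. -/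
theorem uFun_injOn {τ : ℍ} (hs : scaleU τ ≠ 0) {v : ℤ × ℤ}
    (hv : ¬ ((p : ℤ) ∣ v.1 ∧ (p : ℤ) ∣ v.2)) :
    Set.InjOn (fun m : ℕ => uFun p ((m : ℤ) • v) τ) (half p : Set ℕ) := by
  intro a ha b hb hab
  have hpi : Prime (p : ℤ) := Nat.prime_iff_prime_int.1 hp.out
  obtain ⟨ha1, ha2⟩ := mem_half.1 ha
  obtain ⟨hb1, hb2⟩ := mem_half.1 hb
  have hsmall : ∀ c : ℤ, (p : ℤ) ∣ c * v.1 → (p : ℤ) ∣ c * v.2 → (p : ℤ) ∣ c := fun c h1 h2 => by
    by_contra hc
    exact hv ⟨(hpi.dvd_or_dvd h1).resolve_left hc, (hpi.dvd_or_dvd h2).resolve_left hc⟩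
  have hp2 : p / 2 + p / 2 ≤ p := by omega
  rcases eq_or_of_uFun_eq hs (not_both_smul hv ha) (not_both_smul hv hb) hab with ⟨h1, h2⟩ | ⟨h1, h2⟩
  · simp only [Prod.smul_fst, Prod.smul_snd, smul_eq_mul, ← sub_mul] at h1 h2
    have h := Int.eq_zero_of_abs_lt_dvd (hsmall _ h1 h2) (by rw [abs_lt]; constructor <;> omega)
    omega
  · simp only [Prod.smul_fst, Prod.smul_snd, smul_eq_mul, ← add_mul] at h1 h2
    have hdvd := hsmall _ h1 h2
    have h := Int.le_of_dvd (by omega) hdvd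
    have : p = 2 * (p / 2) := by omega
    have hp2' : p = 2 := by
      rcases hp.out.eq_two_or_odd with h | h
      · exact h
      · omega
    omega

/-- Different lines have different polynomials. -/
theorem det_eq_zero_of_funPoly_eq {τ : ℍ} (hs : scaleU τ ≠ 0) {v w : ℤ × ℤ}
    (hv : ¬ ((p : ℤ) ∣ v.1 ∧ (p : ℤ) ∣ v.2)) (hw : ¬ ((p : ℤ) ∣ w.1 ∧ (p : ℤ) ∣ w.2))
    (h : funPoly p v τ = funPoly p w τ) :
    (v.1 : ZMod p) * w.2 - v.2 * w.1 = 0 := by
  have h1 : 1 ∈ half p := mem_half.2 ⟨le_rfl, by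
    have := hp.out.two_le
    omega⟩
  have h0 : (funPoly p v τ).eval (uFun p ((1 : ℕ) • v) τ) = 0 := by
    rw [funPoly, Polynomial.eval_prod]
    exact Finset.prod_eq_zero h1 (by simp)
  rw [h, funPoly, Polynomial.eval_prod, Finset.prod_eq_zero_iff] at h0
  obtain ⟨m, hm, hm0⟩ := h0
  simp only [one_smul, Polynomial.eval_sub, Polynomial.eval_X, Polynomial.eval_C,
    sub_eq_zero] at hm0
  rcases eq_or_of_uFun_eq hs hv (not_both_smul hw hm) hm0 with ⟨a, b⟩ | ⟨a, b⟩
  all_goals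
    have a' := (ZMod.intCast_zmod_eq_zero_iff_dvd _ p).2 a
    have b' := (ZMod.intCast_zmod_eq_zero_iff_dvd _ p).2 b
    simp only [Prod.smul_fst, Prod.smul_snd, smul_eq_mul, Int.cast_sub, Int.cast_add, Int.cast_mul,
      Int.cast_natCast] at a' b'
  · linear_combination (w.1 : ZMod p) * b' - (w.2 : ZMod p) * a'
  · linear_combination (w.2 : ZMod p) * a' - (w.1 : ZMod p) * b'

/-- The coefficients as functions. -/
def funCoeff (p k : ℕ) (τ : ℍ) : ℂ := (funPoly p (0, 1) τ).coeff k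

theorem exists_coeff_expFuns (g : SL(2, ℤ)) (k : ℕ) :
    (fun z => funCoeff p k (g • z)) ∈ expFuns p := by
  have hv : ¬ ((p : ℤ) ∣ (0 : ℤ) ∧ (p : ℤ) ∣ (1 : ℤ)) := fun h =>
    hp.out.one_lt.ne' (by exact_mod_cast Int.eq_one_of_dvd_one (by positivity) h.2)
  have hrow : ∀ m ∈ half p, uFun p ((m : ℤ) • rowMul (0, 1) g) ∈ expFuns p := fun m hm => by
    refine uFun_mem_expFuns (not_both_smul (fun h => ?_) hm)
    obtain ⟨h1, h2⟩ := h
    have hdet : g 0 0 * g 1 1 - g 0 1 * g 1 0 = 1 := det_int g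
    simp only [rowMul, zero_mul, zero_add, one_mul] at h1 h2
    exact hv ⟨dvd_zero _, hdet ▸ dvd_sub (Dvd.dvd.mul_left h2 _) (Dvd.dvd.mul_left h1 _)⟩
  let Q : Polynomial (expFuns p) := ∏ m ∈ (half p).attach,
    (Polynomial.X - Polynomial.C ⟨uFun p ((m.1 : ℤ) • rowMul (0, 1) g), hrow m.1 m.2⟩)
  have : (fun z => funCoeff p k (g • z)) = ((Q.coeff k : expFuns p) : ℍ → ℂ) := by
    funext z
    have h1 : Q.map ((Pi.evalRingHom (fun _ : ℍ => ℂ) z).comp (expFuns p).subtype) =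
        funPoly p (rowMul (0, 1) g) z := by
      simp only [Q, funPoly, Polynomial.map_prod, Polynomial.map_sub, Polynomial.map_X,
        Polynomial.map_C]
      exact Finset.prod_attach (half p) (fun m : ℕ =>
        Polynomial.X - Polynomial.C (uFun p ((m : ℤ) • rowMul (0, 1) g) z))
    rw [funCoeff, funPoly_smul, ← h1, Polynomial.coeff_map]
    rfl
  rw [this]
  exact (Q.coeff k).2

theorem hasExp_funCoeff (k : ℕ) :
    HasExp (qp 1) (funCoeff p k) ((serPoly p (eta p 1)).coeff k) := by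
  have hu : ∀ m ∈ half p, HasExp (qp 1) (uFun p ((m : ℤ) • ((0 : ℤ), (1 : ℤ))))
      (uLaurent p (eta p 1 ^ m)) := fun m hm => by
    rw [← eta_natCast, show (m : ℤ) • ((0 : ℤ), (1 : ℤ)) = ((0 : ℤ), (m : ℤ)) by simp]
    exact hasExp_uFun_zero fun h =>
      half_cast_ne_zero hm ((ZMod.natCast_eq_zero_iff m p).2 (Int.natCast_dvd_natCast.1 h))
  let P : Polynomial (expPairs (qp_ne_zero 1)) := ∏ m ∈ (half p).attach,
    (Polynomial.X - Polynomial.C ⟨(_, _), hu m.1 m.2⟩)
  let φ := (RingHom.snd (ℍ → ℂ) (LaurentSeries ℂ)).comp (expPairs (qp_ne_zero 1)).subtype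
  have hs : P.map φ = serPoly p (eta p 1) := by
    simp only [P, φ, serPoly, Polynomial.map_prod, Polynomial.map_sub, Polynomial.map_X,
      Polynomial.map_C]
    exact Finset.prod_attach (half p) (fun m : ℕ =>
      Polynomial.X - Polynomial.C (uLaurent p (eta p 1 ^ m)))
  have hf : ∀ z, (P.coeff k).1.1 z = funCoeff p k z := fun z => by
    let ψ := (Pi.evalRingHom (fun _ : ℍ => ℂ) z).comp
      ((RingHom.fst (ℍ → ℂ) (LaurentSeries ℂ)).comp (expPairs (qp_ne_zero 1)).subtype)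
    have h1 : P.map ψ = funPoly p (0, 1) z := by
      simp only [P, ψ, funPoly, Polynomial.map_prod, Polynomial.map_sub, Polynomial.map_X,
        Polynomial.map_C]
      exact Finset.prod_attach (half p) (fun m : ℕ =>
        Polynomial.X - Polynomial.C (uFun p ((m : ℤ) • ((0 : ℤ), (1 : ℤ))) z))
    rw [funCoeff, ← h1, Polynomial.coeff_map]
    rfl
  rw [← hs, Polynomial.coeff_map]
  exact HasExp.congr (f := (P.coeff k).1.1) (P.coeff k).2 (funext hf)

theorem funCoeff_invariant {g : SL(2, ℤ)} (hg : g ∈ CongruenceSubgroup.Gamma0 p) (k : ℕ) (z : ℍ) :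
    funCoeff p k (g • z) = funCoeff p k z := by
  rw [CongruenceSubgroup.Gamma0_mem] at hg
  have hdet := congrArg (Int.cast : ℤ → ZMod p) (det_int g)
  push_cast at hdet
  rw [hg, mul_zero, sub_zero] at hdet
  rw [funCoeff, funCoeff, funPoly_smul,
    funPoly_congr (v := (0, 1)) (d := ((g 1 1 : ℤ) : ZMod p))
      (fun h => by simp [h] at hdet) (by simp [rowMul, hg]) (by simp [rowMul])]

theorem funCoeff_mem (k : ℕ) : funCoeff p k ∈ (lvlGamma0 p).mf := by
  refine ⟨?_, fun g hg z => funCoeff_invariant hg k z, ⟨_, hasExp_funCoeff k⟩, fun g => ?_⟩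
  · have h := (exists_coeff_expFuns (p := p) 1 k).1
    simpa using h
  · exact (exists_coeff_expFuns (p := p) g k).2

end FA.Mazur.Moduli

end
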