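import Fermat.Agent.Mazur.Moduli.LineFun
import Fermat.Agent.Mazur.Wp.Group
import Fermat.Agent.Frob.VarChange
import Fermat.Agent.EC.TorsionCard
import Fermat.Prelude.Def_FLTPrelim_GaloisRep
import Mathlib.AlgebraicGeometry.EllipticCurve.IsomOfJ

/-!
# The half line of a curve over `ℚ`

For a curve over `ℚ` the abscissae `uVal W x = 3 (j - 1728) c₄ / c₆ (12 x + b₂)` of the points of a
line are the values of `uFun` on the corresponding line of `ℤτ + ℤ`, `j(τ) = j`.
-/

set_option autoImplicit false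
set_option linter.unusedSectionVars false
set_option linter.style.haveILetI false

noncomputable section

namespace FA.Mazur.Moduli

open UpperHalfPlane hiding I
open Complex FA.ModField FA.Mazur.Wp WeierstrassCurve FA.EC
open scoped WeierstrassCurve.Affine

local notation "Qb" => AlgebraicClosure ℚ
local notation "GQ" => AlgebraicClosure ℚ ≃ₐ[ℚ] AlgebraicClosure ℚ

/-- The abscissa normalised to weight zero. -/
def uVal (W : WeierstrassCurve ℚ) [W.IsElliptic] {K : Type*} [Field K] [Algebra ℚ K] (x : K) : K :=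
  algebraMap ℚ K (3 * (W.j - 1728) * (W.c₄ / W.c₆)) * (12 * x + algebraMap ℚ K W.b₂)

theorem map_uVal (W : WeierstrassCurve ℚ) [W.IsElliptic] {K K' : Type*} [Field K] [Algebra ℚ K]
    [Field K'] [Algebra ℚ K'] (f : K →ₐ[ℚ] K') (x : K) : f (uVal W x) = uVal W (f x) := by
  simp only [uVal, map_mul, map_add, AlgHom.commutes, map_ofNat]

theorem isElliptic_latPair (τ : ℍ) : (latCurve (latPair τ)).IsElliptic :=
  ⟨isUnit_iff_ne_zero.2 (by rw [latCurve_Δ]; exact discr_latPair_ne_zero τ)⟩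

theorem j_latPair (τ : ℍ) [(latCurve (latPair τ)).IsElliptic] :
    (latCurve (latPair τ)).j = jfun τ := by
  rw [WeierstrassCurve.j, Units.val_inv_eq_inv_val, WeierstrassCurve.coe_Δ', latCurve_Δ,
    latCurve_c₄, discr_latPair, g₂_latPair, jfun]
  have := tpi_ne_zero
  have := ModularForm.discriminant_ne_zero τ
  field_simp

variable {p : ℕ} [hp : Fact p.Prime]

/-- Every point of order `p` of the uniformised curve is a value of the uniformisation. -/
theorem exists_vec_of_torsion (τ : ℍ) [(latCurve (latPair τ)).IsElliptic]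
    (P : (latCurve (latPair τ)).toAffine.Point) (hP : p • P = 0) :
    ∃ v : ℤ × ℤ, unif (latPair τ) (zPt p v.1 v.2 τ) = P := by
  classical
  haveI : NeZero p := ⟨hp.out.ne_zero⟩
  have hp0 : (p : ℂ) ≠ 0 := Nat.cast_ne_zero.2 hp.out.ne_zero
  have hmem : ∀ v : ℤ × ℤ, p • unif (latPair τ) (zPt p v.1 v.2 τ) = 0 := fun v => by
    rw [← unifHom_apply, ← map_nsmul, unifHom_apply, unif_eq_zero_iff, nsmul_eq_mul]
    exact mul_argV_mem v τ
  let Θ : ZMod p × ZMod p → {Q : (latCurve (latPair τ)).toAffine.Point // p • Q = 0} :=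
    fun v => ⟨_, hmem ((v.1.val : ℤ), (v.2.val : ℤ))⟩
  have hinj : Function.Injective Θ := fun v w h => by
    have h1 := (unif_eq_unif_iff (latPair τ)).1 (congrArg Subtype.val h)
    rw [show zPt p ((v.1.val : ℤ), (v.2.val : ℤ)).1 ((v.1.val : ℤ), (v.2.val : ℤ)).2 τ -
        zPt p ((w.1.val : ℤ), (w.2.val : ℤ)).1 ((w.1.val : ℤ), (w.2.val : ℤ)).2 τ =
        argV p (((v.1.val : ℤ) - w.1.val), ((v.2.val : ℤ) - w.2.val)) τ by
      simp only [zPt, argV]; push_cast; ring] at h1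
    obtain ⟨a, b⟩ := (argV_mem_iff _ τ).1 h1
    refine Prod.ext ?_ ?_
    · have := (ZMod.intCast_zmod_eq_zero_iff_dvd _ p).2 a
      simpa [sub_eq_zero] using this
    · have := (ZMod.intCast_zmod_eq_zero_iff_dvd _ p).2 b
      simpa [sub_eq_zero] using this
  have hcard := natCard_nsmul_eq_zero (latCurve (latPair τ)) (n := p) hp0
  haveI : Finite {Q : (latCurve (latPair τ)).toAffine.Point // p • Q = 0} :=
    Nat.finite_of_card_ne_zero (hcard ▸ pow_ne_zero 2 hp.out.ne_zero)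
  haveI := Fintype.ofFinite {Q : (latCurve (latPair τ)).toAffine.Point // p • Q = 0}
  have hbij : Function.Bijective Θ := (Fintype.bijective_iff_injective_and_card Θ).2 ⟨hinj, by
    rw [← Nat.card_eq_fintype_card, ← Nat.card_eq_fintype_card, hcard, Nat.card_prod,
      Nat.card_zmod, sq]⟩
  obtain ⟨v, hv⟩ := hbij.2 ⟨P, hP⟩
  exact ⟨_, congrArg Subtype.val hv⟩

variable (W : WeierstrassCurve ℚ) [W.IsElliptic]

/-- **The abscissae of a line over `ℂ`.** -/
theorem exists_vec_of_point {τ : ℍ} (hτ : jfun τ = algebraMap ℚ ℂ W.j) (h0 : W.j ≠ 0)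
    (h1728 : W.j ≠ 1728) (P : (W.toAffine⁄ℂ).Point) (hP : p • P = 0) (hP0 : P ≠ 0) :
    ∃ v : ℤ × ℤ, ¬ ((p : ℤ) ∣ v.1 ∧ (p : ℤ) ∣ v.2) ∧ ∀ m : ℕ, m • P ≠ 0 →
      uVal W (xc (m • P)) = uFun p ((m : ℤ) • v) τ := by
  classical
  haveI := isElliptic_latPair τ
  obtain ⟨C, hC⟩ := WeierstrassCurve.exists_variableChange_of_j_eq (W.map (algebraMap ℚ ℂ))
    (latCurve (latPair τ)) (by rw [j_latPair, hτ, WeierstrassCurve.map_j])
  let e : (latCurve (latPair τ)).toAffine.Point ≃+ (W.toAffine⁄ℂ).Point := FA.Frob.vcEquiv C hC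
  obtain ⟨v, hv⟩ := exists_vec_of_torsion (p := p) τ (e.symm P) (by
    rw [← map_nsmul, hP, map_zero])
  refine ⟨v, fun hd => hP0 ?_, fun m hm => ?_⟩
  · rw [← e.apply_symm_apply P, ← hv,
      unif_of_mem (latPair τ) (show zPt p v.1 v.2 τ ∈ _ from (argV_mem_iff v τ).2 hd), map_zero]
  have hz : zPt p ((m : ℤ) • v).1 ((m : ℤ) • v).2 τ = (m : ℕ) • zPt p v.1 v.2 τ := by
    rw [nsmul_eq_mul]; simp only [zPt, Prod.smul_fst, Prod.smul_snd, smul_eq_mul]; push_cast; ring
  have he : m • P = e (unif (latPair τ) (zPt p ((m : ℤ) • v).1 ((m : ℤ) • v).2 τ)) := by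
    rw [hz, ← unifHom_apply, map_nsmul, unifHom_apply, hv, map_nsmul, e.apply_symm_apply]
  have hnot : zPt p ((m : ℤ) • v).1 ((m : ℤ) • v).2 τ ∉ (latPair τ).lattice := fun h => hm (by
    rw [he, unif_of_mem _ h, map_zero])
  have hu : (C.u : ℂ) ≠ 0 := C.u.ne_zero
  rw [he, unif_of_notMem _ hnot]
  show uVal W (FA.Frob.vcX C _) = _
  have hb := congrArg WeierstrassCurve.b₂ hC
  have hc4 := congrArg WeierstrassCurve.c₄ hC
  have hc6 := congrArg WeierstrassCurve.c₆ hC
  rw [variableChange_b₂, show (latCurve (latPair τ)).b₂ = 0 by simp [latCurve, b₂]] at hb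
  rw [variableChange_c₄, latCurve_c₄, g₂_latPair] at hc4
  rw [variableChange_c₆, latCurve_c₆, g₃_latPair] at hc6
  rw [WeierstrassCurve.map_b₂] at hb
  rw [WeierstrassCurve.map_c₄] at hc4
  rw [WeierstrassCurve.map_c₆] at hc6
  simp only [Units.val_inv_eq_inv_val, mul_eq_zero, pow_eq_zero_iff two_ne_zero, inv_eq_zero,
    hu, false_or] at hb hc4 hc6
  have hj : jfun τ - 1728 = ModularForm.E₆ τ ^ 2 / ModularForm.discriminant τ := jfun_sub_1728 τ
  have hE6 : ModularForm.E₆ τ ≠ 0 := E6_ne_zero_of (fun h => h1728 (by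
    rw [hτ, ← map_ofNat (algebraMap ℚ ℂ) 1728] at h
    exact (algebraMap ℚ ℂ).injective h))
  have hE4 : ModularForm.E₄ τ ≠ 0 := E4_ne_zero_of (fun h => h0 (by
    rw [hτ, ← map_zero (algebraMap ℚ ℂ)] at h
    exact (algebraMap ℚ ℂ).injective h))
  rw [uFun_eq, wFac, xVal, uVal, FA.Frob.vcX]
  rw [show algebraMap ℚ ℂ W.b₂ = -12 * C.r by linear_combination hb]
  simp only [map_mul, map_sub, map_div₀, map_ofNat, ← hτ, hj]
  have h4 : algebraMap ℚ ℂ W.c₄ = (C.u : ℂ) ^ 4 * (12 * (tpi ^ 4 / 12 * ModularForm.E₄ τ)) := by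
    rw [← hc4]; field_simp
  have h6 : algebraMap ℚ ℂ W.c₆ = (C.u : ℂ) ^ 6 * (216 * (-(tpi ^ 6 / 216) * ModularForm.E₆ τ)) := by
    rw [← hc6]; field_simp
  rw [h4, h6]
  have := tpi_ne_zero
  have := ModularForm.discriminant_ne_zero τ
  field_simp
  ring

/-! ### Over the algebraic numbers -/

variable {W}

theorem nsmul_congr {G : Type*} [AddMonoid G] {P : G} (hP : p • P = 0) {a b : ℕ}
    (h : (a : ZMod p) = b) : a • P = b • P := by
  rw [← Nat.mod_add_div a p, ← Nat.mod_add_div b p, add_nsmul, add_nsmul, mul_nsmul, mul_nsmul,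
    hP, nsmul_zero, nsmul_zero, (ZMod.natCast_eq_natCast_iff' a b p).1 h]

theorem nsmul_ne_zero {G : Type*} [AddMonoid G] {P : G} (hP : p • P = 0) (hP0 : P ≠ 0) {m : ℕ}
    (hm : (m : ZMod p) ≠ 0) : m • P ≠ 0 := fun h => hP0 (by
  obtain ⟨k, hk⟩ : ∃ k : ℕ, ((k * m : ℕ) : ZMod p) = 1 := ⟨((m : ZMod p)⁻¹).val, by
    simp [inv_mul_cancel₀ hm]⟩
  calc P = (1 : ℕ) • P := (one_nsmul P).symm
    _ = (k * m) • P := (nsmul_congr hP (by simpa using hk)).symm
    _ = 0 := by rw [mul_nsmul', h, nsmul_zero])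

variable (W) in
/-- The root attached to the multiple `m` of a point. -/
def lineRoot (P : (W.toAffine⁄Qb).Point) (m : ℕ) : Qb := uVal W (xc (m • P))

variable (p W) in
/-- The polynomial of the half line of a point. -/
def linePoly (P : (W.toAffine⁄Qb).Point) : Polynomial Qb :=
  ∏ m ∈ half p, (Polynomial.X - Polynomial.C (lineRoot W P m))

theorem gal_lineRoot (σ : GQ) (P : (W.toAffine⁄Qb).Point) (hP : p • P = 0) (hP0 : P ≠ 0) {m : ℕ}
    (hm : (m : ZMod p) ≠ 0) : σ (lineRoot W P m) = lineRoot W (σ • P) m := by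
  have h := nsmul_ne_zero hP hP0 hm
  rw [lineRoot, lineRoot]
  refine (map_uVal W σ.toAlgHom _).trans (congrArg (uVal W) ?_)
  rw [show m • (σ • P) = σ • (m • P) from
    (map_nsmul (DistribSMul.toAddMonoidHom (W.toAffine⁄Qb).Point σ) m P).symm]
  obtain ⟨x, y, hxy, he⟩ := exists_some_of_ne_zero h
  rw [he]
  rfl

theorem linePoly_smul {P : (W.toAffine⁄Qb).Point} (hP : p • P = 0) {d : ℕ}
    (hd : (d : ZMod p) ≠ 0) : linePoly p W (d • P) = linePoly p W P := by
  let F : ZMod p → Polynomial Qb := fun k => Polynomial.X - Polynomial.C (lineRoot W P k.val)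
  have hF : ∀ k, F (-k) = F k := fun k => by
    have h1 : (-k).val • P = -(k.val • P) := by
      rw [eq_neg_iff_add_eq_zero, ← add_nsmul, nsmul_congr hP (b := 0) (by simp), zero_nsmul]
    simp only [F, lineRoot, h1, xc_neg]
  refine Eq.trans ?_ ((prod_half_mul F hF hd).trans ?_)
  · refine Finset.prod_congr rfl fun m _ => ?_
    simp only [F, lineRoot]
    rw [← mul_nsmul, nsmul_congr hP (b := ((d : ZMod p) * (m : ZMod p)).val) (by simp)]
  · refine Finset.prod_congr rfl fun m _ => ?_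
    simp only [F, lineRoot]
    rw [nsmul_congr hP (b := m) (by simp)]

theorem gal_linePoly (σ : GQ) {P : (W.toAffine⁄Qb).Point} (hP : p • P = 0) (hP0 : P ≠ 0) :
    (linePoly p W P).map (σ : Qb →+* Qb) = linePoly p W (σ • P) := by
  simp only [linePoly, Polynomial.map_prod, Polynomial.map_sub, Polynomial.map_X, Polynomial.map_C]
  refine Finset.prod_congr rfl fun m hm => ?_
  exact congrArg (fun c => Polynomial.X - Polynomial.C c)
    (gal_lineRoot σ P hP hP0 (half_cast_ne_zero hm))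

/-- The polynomial of a stable line is fixed by Galois. -/
theorem gal_linePoly_of_stable {C : AddSubgroup (W.toAffine⁄Qb).Point} (hC : Nat.card C = p)
    (hst : ∀ σ : GQ, ∀ Q ∈ C, σ • Q ∈ C) {P : (W.toAffine⁄Qb).Point} (hPC : P ∈ C) (hP0 : P ≠ 0)
    (σ : GQ) : (linePoly p W P).map (σ : Qb →+* Qb) = linePoly p W P := by
  haveI : Finite C := Nat.finite_of_card_ne_zero (hC ▸ hp.out.ne_zero)
  have hP : p • P = 0 := by
    have := congrArg Subtype.val (card_nsmul_eq_zero' (x := (⟨P, hPC⟩ : C)))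
    rwa [hC] at this
  rw [gal_linePoly σ hP hP0]
  have htop := zmultiples_eq_top_of_prime_card (G := C) hC (g := ⟨P, hPC⟩)
    (fun h => hP0 (congrArg Subtype.val h))
  obtain ⟨z, hz⟩ : (⟨σ • P, hst σ P hPC⟩ : C) ∈ AddSubgroup.zmultiples (⟨P, hPC⟩ : C) := by
    rw [htop]; trivial
  have hz' : z • P = σ • P := congrArg Subtype.val hz
  have hd : σ • P = ((z : ZMod p)).val • P := by
    have hpz : ((p : ℤ) • P) = 0 := by rw [natCast_zsmul, hP]
    rw [← hz', ← natCast_zsmul, ZMod.val_intCast]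
    conv_lhs => rw [← Int.emod_add_mul_ediv z p, add_zsmul, mul_comm, mul_zsmul, hpz, zsmul_zero,
      add_zero]
  rw [hd]
  refine linePoly_smul hP ?_
  rw [ZMod.natCast_val, ZMod.cast_id]
  intro h0
  rw [h0, ZMod.val_zero, zero_nsmul] at hd
  exact hP0 ((smul_eq_zero_iff_eq σ).1 hd)

end FA.Mazur.Moduli

end
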