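import Fermat.Agent.Mazur.Moduli.WeierAdd
import Fermat.Agent.EC.Coord

/-!
# Multiples of the point attached to a torsion argument

On a curve `y² = x³ + A x + B` with `A = -s² g₂/4`, `B = -s³ g₃/4` the point `(s ℘(z), r ℘'(z)/2)`
with `r² = s³` is killed by `p` when `p z` is a period, and its multiples have abscissae `s ℘(m z)`.
-/

set_option autoImplicit false
set_option linter.unusedSectionVars false

noncomputable section

open PeriodPair WeierstrassCurve FA.EC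

namespace FA.Mazur.Weier

variable (L : PeriodPair) {p : ℕ} [hp : Fact p.Prime]

theorem nsmul_mem_iff {z : ℂ} (hz : z ∉ L.lattice) (hpz : (p : ℂ) * z ∈ L.lattice) (m : ℤ) :
    (m : ℂ) * z ∈ L.lattice ↔ (p : ℤ) ∣ m := by
  refine ⟨fun hm => by_contra fun hnd => hz ?_, fun ⟨k, hk⟩ => ?_⟩
  · obtain ⟨a, b, hab⟩ : IsCoprime (p : ℤ) m :=
      (Nat.prime_iff_prime_int.1 hp.out).coprime_iff_not_dvd.2 hnd
    have e : z = a • ((p : ℂ) * z) + b • ((m : ℂ) * z) := by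
      have h := congrArg (fun t : ℤ => (t : ℂ) * z) hab
      push_cast at h
      simp only [zsmul_eq_mul]
      linear_combination -h
    rw [e]
    exact add_mem (Submodule.smul_mem _ a hpz) (Submodule.smul_mem _ b hm)
  · rw [hk, show ((((p : ℤ) * k : ℤ)) : ℂ) * z = k • ((p : ℂ) * z) by
      rw [zsmul_eq_mul]; push_cast; ring]
    exact Submodule.smul_mem _ k hpz

theorem weierstrassP_ne_multiple {z : ℂ} (hz : z ∉ L.lattice) (hpz : (p : ℂ) * z ∈ L.lattice)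
    {m n : ℤ} (hm : ¬ (p : ℤ) ∣ m) (hn : ¬ (p : ℤ) ∣ n) (h1 : ¬ (p : ℤ) ∣ m - n)
    (h2 : ¬ (p : ℤ) ∣ m + n) : ℘[L] ((m : ℂ) * z) ≠ ℘[L] ((n : ℂ) * z) := by
  intro h
  rcases eq_or_eq_neg_of_eq L (fun e => hn ((nsmul_mem_iff L hz hpz n).1 e))
    (fun e => hm ((nsmul_mem_iff L hz hpz m).1 e)) h.symm with e | e
  · exact h1 ((nsmul_mem_iff L hz hpz (m - n)).1 (by push_cast; rwa [sub_mul]))
  · exact h2 ((nsmul_mem_iff L hz hpz (m + n)).1 (by push_cast; rwa [add_mul]))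

theorem deriv_ne_zero_of_torsion {z : ℂ} (hz : z ∉ L.lattice) (hpz : (p : ℂ) * z ∈ L.lattice)
    (hp2 : p ≠ 2) : ℘'[L] z ≠ 0 := by
  intro h0
  have := sub_mem_of_eq L (x := -z) (fun e => hz (by simpa using neg_mem e)) hz
    (by simp) (by simp [h0])
  have h2 := (nsmul_mem_iff L hz hpz 2).1 (by simpa [two_mul] using this)
  rcases (Nat.dvd_prime Nat.prime_two).1 (Int.natCast_dvd_natCast.1 h2) with h | h
  · exact hp.out.ne_one h
  · exact hp2 h

variable {E : WeierstrassCurve ℂ} [E.IsElliptic] {s r : ℂ}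

theorem equation_weierstrass (ha : E.a₁ = 0 ∧ E.a₂ = 0 ∧ E.a₃ = 0) (hA : E.a₄ = -s ^ 2 * L.g₂ / 4)
    (hB : E.a₆ = -s ^ 3 * L.g₃ / 4) (hr : r ^ 2 = s ^ 3) {z : ℂ} (hz : z ∉ L.lattice) :
    E.toAffine.Nonsingular (s * ℘[L] z) (r * ℘'[L] z / 2) := by
  refine Affine.equation_iff_nonsingular.1 ?_
  rw [Affine.equation_iff]
  simp only [ha.1, ha.2.1, ha.2.2, hA, hB]
  linear_combination (℘'[L] z ^ 2 / 4) * hr + (s ^ 3 / 4) * L.derivWeierstrassP_sq z hz

/-- The point attached to an argument off the lattice. -/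
def pointP (ha : E.a₁ = 0 ∧ E.a₂ = 0 ∧ E.a₃ = 0) (hA : E.a₄ = -s ^ 2 * L.g₂ / 4)
    (hB : E.a₆ = -s ^ 3 * L.g₃ / 4) (hr : r ^ 2 = s ^ 3) {z : ℂ} (hz : z ∉ L.lattice) :
    E.toAffine.Point :=
  .some _ _ (equation_weierstrass L ha hA hB hr hz)

variable (ha : E.a₁ = 0 ∧ E.a₂ = 0 ∧ E.a₃ = 0) (hA : E.a₄ = -s ^ 2 * L.g₂ / 4)
  (hB : E.a₆ = -s ^ 3 * L.g₃ / 4) (hr : r ^ 2 = s ^ 3) (hs : s ≠ 0)
include hs

/-- The abscissae of the multiples up to half the order. -/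
theorem xc_nsmul_pointP {z : ℂ} (hz : z ∉ L.lattice) (hpz : (p : ℂ) * z ∈ L.lattice) (hp2 : p ≠ 2) :
    ∀ m : ℕ, 1 ≤ m → 2 * m ≤ p + 1 → m • pointP L ha hA hB hr hz ≠ 0 ∧
      xc (m • pointP L ha hA hB hr hz) = s * ℘[L] ((m : ℂ) * z) := by
  set P := pointP L ha hA hB hr hz
  have hPne : P ≠ 0 := Affine.Point.some_ne_zero _
  have hb2 : E.b₂ = 0 := by simp [WeierstrassCurve.b₂, ha.1, ha.2.1]
  have hb4 : E.b₄ = -s ^ 2 * L.g₂ / 2 := by
    simp only [WeierstrassCurve.b₄, ha.1, hA]; ring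
  have hb6 : E.b₆ = -s ^ 3 * L.g₃ := by simp only [WeierstrassCurve.b₆, ha.2.2, hB]; ring
  have hz' := deriv_ne_zero_of_torsion L hz hpz hp2
  have hpodd := hp.out.odd_of_ne_two hp2
  intro m
  induction m using Nat.strong_induction_on with
  | _ m ih =>
    intro hm1 hm2
    rcases Nat.lt_or_ge m 2 with hlt | hge
    · obtain rfl : m = 1 := by omega
      refine ⟨by rwa [one_smul], ?_⟩
      rw [one_smul, Nat.cast_one, one_mul]
      rfl
    obtain ⟨k, rfl⟩ : ∃ k, m = k + 1 := ⟨m - 1, by omega⟩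
    obtain ⟨hkne, hkx⟩ := ih k (by omega) (by omega) (by omega)
    rcases Nat.lt_or_ge k 2 with hk | hk
    · obtain rfl : k = 1 := by omega
      have hr0 : r ≠ 0 := fun h => hs (by simpa [h] using hr.symm)
      have hpc : pc P = r * ℘'[L] z := by
        show r * ℘'[L] z / 2 - E.toAffine.negY _ (r * ℘'[L] z / 2) = _
        simp only [Affine.negY, ha.1, ha.2.2]; ring
      obtain ⟨h1, h2⟩ := xc_add_self hPne (hpc ▸ mul_ne_zero hr0 hz')
      refine ⟨by rwa [succ_nsmul, one_smul], ?_⟩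
      rw [succ_nsmul, one_smul, h2, hpc,
        show ((1 + 1 : ℕ) : ℂ) * z = z + z by push_cast; ring, weierstrassP_double L hz hz']
      show s * ℘[L] z - E.Ψ₃.eval (s * ℘[L] z) / (r * ℘'[L] z) ^ 2 = _
      have hb8 : E.b₈ = -(s ^ 2 * L.g₂ / 4) ^ 2 := by
        simp only [WeierstrassCurve.b₈, ha.1, ha.2.1, ha.2.2, hA]; ring
      simp only [WeierstrassCurve.Ψ₃, hb2, hb4, hb6, hb8, Polynomial.eval_add, Polynomial.eval_mul,
        Polynomial.eval_C, Polynomial.eval_pow, Polynomial.eval_X, Polynomial.eval_ofNat]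
      simp only [mul_pow, hr]
      field_simp
      linear_combination (192 * s * ℘[L] z) * L.derivWeierstrassP_sq z hz
    · obtain ⟨hk'ne, hk'x⟩ := ih (k - 1) (by omega) (by omega) (by omega)
      have hnd : ∀ j : ℤ, 0 < j → j < p → ¬ (p : ℤ) ∣ j := fun j h1 h2 hd =>
        absurd (Int.le_of_dvd h1 hd) (not_le.2 h2)
      have hx : xc (k • P) ≠ xc P := by
        rw [hkx]
        show _ ≠ s * ℘[L] z
        refine fun e => weierstrassP_ne_multiple L hz hpz (m := k) (n := 1) (hnd _ (by omega) (by omega))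
          (hnd _ one_pos (by have := hp.out.two_le; omega)) (hnd _ (by omega) (by omega))
          (hnd _ (by omega) (by omega)) ?_
        push_cast
        rw [one_mul]
        exact mul_left_cancel₀ hs e
      obtain ⟨hadd, -, -⟩ := xc_add_eq hkne hPne hx
      refine ⟨by rwa [succ_nsmul], ?_⟩
      have hsub : k • P - P = (k - 1) • P := by
        conv_lhs => rw [← Nat.sub_add_cancel (show 1 ≤ k by omega), succ_nsmul, add_sub_cancel_right]
      have h := (xc_add_sub_formula hkne hPne hx).1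
      rw [hsub, hk'x, hkx, ← succ_nsmul] at h
      change _ = _ at h
      rw [show xc P = s * ℘[L] z from rfl, hb2, hb4, hb6] at h
      have hkz : (k : ℂ) * z ∉ L.lattice := fun e =>
        hnd k (by omega) (by omega) ((nsmul_mem_iff L hz hpz k).1 (by exact_mod_cast e))
      have hne : ℘[L] ((k : ℂ) * z) ≠ ℘[L] z := fun e => hx (by rw [hkx, e]; rfl)
      have hS := weierstrassP_add_sub L hkz hz hz' hne
      rw [show (k : ℂ) * z + z = ((k + 1 : ℕ) : ℂ) * z by push_cast; ring,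
        show (k : ℂ) * z - z = ((k - 1 : ℕ) : ℂ) * z by
          rw [Nat.cast_sub (by omega : 1 ≤ k)]; push_cast; ring,
        L.derivWeierstrassP_sq _ hkz, L.derivWeierstrassP_sq z hz] at hS
      have hd : (℘[L] ((k : ℂ) * z) - ℘[L] z) ^ 2 ≠ 0 := pow_ne_zero 2 (sub_ne_zero.2 hne)
      have hne' : (s * ℘[L] ((k : ℂ) * z) - s * ℘[L] z) ^ 2 ≠ 0 := by
        rw [← mul_sub, mul_pow]; exact mul_ne_zero (pow_ne_zero 2 hs) hd
      have hS' : (℘[L] (((k + 1 : ℕ) : ℂ) * z) + ℘[L] (((k - 1 : ℕ) : ℂ) * z) +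
          2 * (℘[L] ((k : ℂ) * z) + ℘[L] z)) * (℘[L] ((k : ℂ) * z) - ℘[L] z) ^ 2 =
          (4 * ℘[L] ((k : ℂ) * z) ^ 3 - L.g₂ * ℘[L] ((k : ℂ) * z) - L.g₃ +
            (4 * ℘[L] z ^ 3 - L.g₂ * ℘[L] z - L.g₃)) / 2 := by
        rw [hS]; field_simp; ring
      refine mul_left_cancel₀ hne' ?_
      linear_combination h - s ^ 3 * hS'

/-- **The point attached to a torsion argument is killed by `p`, with the expected multiples.** -/
theorem nsmul_pointP {z : ℂ} (hz : z ∉ L.lattice) (hpz : (p : ℂ) * z ∈ L.lattice) (hp2 : p ≠ 2) :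
    p • pointP L ha hA hB hr hz = 0 ∧ ∀ m : ℕ, ¬ p ∣ m →
      m • pointP L ha hA hB hr hz ≠ 0 ∧
        xc (m • pointP L ha hA hB hr hz) = s * ℘[L] ((m : ℂ) * z) := by
  set P := pointP L ha hA hB hr hz
  have hmul := xc_nsmul_pointP L ha hA hB hr hs hz hpz hp2
  obtain ⟨h, hh⟩ := hp.out.odd_of_ne_two hp2
  have hh0 : 1 ≤ h := by have := hp.out.two_le; omega
  obtain ⟨hhne, hhx⟩ := hmul h hh0 (by omega)
  obtain ⟨hh1ne, hh1x⟩ := hmul (h + 1) (by omega) (by omega)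
  have hper : ℘[L] (((h + 1 : ℕ) : ℂ) * z) = ℘[L] ((h : ℂ) * z) := by
    have e : ((h + 1 : ℕ) : ℂ) * z = -((h : ℂ) * z) + (⟨(p : ℂ) * z, hpz⟩ : L.lattice) := by
      simp only [hh]; push_cast; ring
    rw [e, weierstrassP_add_coe, weierstrassP_neg]
  have hP0 : p • P = 0 := by
    rcases eq_or_eq_neg_of_xc_eq hh1ne hhne (by rw [hh1x, hhx, hper]) with e | e
    · rw [succ_nsmul, add_eq_left] at e
      exact absurd e (Affine.Point.some_ne_zero _)
    · rw [hh, show 2 * h + 1 = (h + 1) + h by omega, add_nsmul, e, neg_add_cancel]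
  refine ⟨hP0, fun m hm => ?_⟩
  obtain ⟨q, j, hmj, hj0, hjp⟩ : ∃ q j, m = q * p + j ∧ 1 ≤ j ∧ j < p :=
    ⟨m / p, m % p, (Nat.div_add_mod' m p).symm,
      Nat.pos_of_ne_zero fun e => hm (Nat.dvd_of_mod_eq_zero e), Nat.mod_lt _ hp.out.pos⟩
  have hmP : m • P = j • P := by rw [hmj, add_nsmul, mul_nsmul', hP0, nsmul_zero, zero_add]
  have hmz : ℘[L] ((m : ℂ) * z) = ℘[L] ((j : ℂ) * z) := by
    have e : (m : ℂ) * z = (j : ℂ) * z + ((q : ℤ) • (⟨(p : ℂ) * z, hpz⟩ : L.lattice) : L.lattice) := by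
      simp only [hmj, SetLike.val_smul, zsmul_eq_mul]; push_cast; ring
    rw [e, weierstrassP_add_coe]
  rw [hmP, hmz]
  rcases Nat.lt_or_ge (2 * j) (p + 2) with hlt | hge
  · exact hmul j hj0 (by omega)
  obtain ⟨hne, hx⟩ := hmul (p - j) (by omega) (by omega)
  have hj : j • P = -((p - j) • P) := by
    rw [eq_neg_iff_add_eq_zero, ← add_nsmul, Nat.add_sub_cancel' hjp.le, hP0]
  have e : (j : ℂ) * z = -(((p - j : ℕ) : ℂ) * z) + (⟨(p : ℂ) * z, hpz⟩ : L.lattice) := by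
    simp only [Nat.cast_sub hjp.le]; ring
  rw [hj, xc_neg, e, weierstrassP_add_coe, weierstrassP_neg]
  exact ⟨neg_ne_zero.2 hne, hx⟩

end FA.Mazur.Weier

end
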