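import Fermat.Agent.Mazur.Moduli.CurveLine
import Fermat.Agent.Mazur.Bounded
import Fermat.Agent.Level.Families
import Fermat.Agent.Level.Interp
import Fermat.Agent.ModField.Congruence.Galois

/-!
# The rational place of a stable line

The places above `j` are indexed by the lines of `ℤτ + ℤ`; the values of the half line polynomial
tell them apart and are rational on the given line.
-/

set_option autoImplicit false
set_option linter.unusedSectionVars false
set_option linter.style.haveILetI false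
set_option synthInstance.maxHeartbeats 400000
set_option maxHeartbeats 1600000

noncomputable section

namespace FA.Mazur.Moduli

open UpperHalfPlane hiding I
open Complex FA.ModField FA.Level ModularCurve AlgebraicCurve FA.Curve FA.Mazur WeierstrassCurve FA.EC
open HahnSeries (ofPowerSeries)
open scoped MatrixGroups WeierstrassCurve.Affine Manifold

local notation "Qb" => AlgebraicClosure ℚ
local notation "GQ" => AlgebraicClosure ℚ ≃ₐ[ℚ] AlgebraicClosure ℚ

section Emb

variable {V : Lvl} {L : Type} [Field L] [Algebra ℚ L] [Algebra L ℂ]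

/-- The embeddings on an element whose series expands a modular function. -/
theorem emb_of_fun {f : V.fld L} {R : ℍ → ℂ}
    (h : HasExp (qp 1) R (coeffMap (algebraMap L ℂ) (f : LaurentSeries L))) (P : LPar V)
    (γ : SL(2, ℤ)) {K : LaurentSeries ℂ} (hK : HasExp P.T (fun x => R (γ • P.g₀ x)) K) :
    emb P γ f = K := by
  obtain ⟨a, b, hb, hab⟩ := V.exists_fraction L f
  have hser : (f : LaurentSeries L) * (b : LaurentSeries L) = a := congrArg Subtype.val hab
  have hfun : R * V.funHom L b = V.funHom L a := by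
    refine (h.mul (qp_ne_zero 1) (V.funHom_exp L b)).fun_unique ?_
    rw [← map_mul, hser]
    exact V.funHom_exp L a
  have h2 := congrArg (emb P γ) hab
  rw [map_mul, emb_toFld, emb_toFld] at h2
  refine mul_right_cancel₀ (expAt_ne_zero P γ hb) (h2.trans (expAt_eq ?_))
  refine (hK.mul P.hT (expAt_spec P γ b)).congr (funext fun x => ?_)
  rw [← hfun]
  rfl

/-- At a point of `ℍ` the embedding starts with the value. -/
theorem emb_point_coeff {f : V.fld L} {R : ℍ → ℂ} (hR : R ∈ V.mf)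
    (h : HasExp (qp 1) R (coeffMap (algebraMap L ℂ) (f : LaurentSeries L))) (τ : ℍ)
    (γ : SL(2, ℤ)) :
    (emb (pointPar V τ) γ f).coeff 0 = R (γ • τ) ∧
      ∀ n : ℤ, n < 0 → (emb (pointPar V τ) γ f).coeff n = 0 := by
  have he := emb_of_fun h (pointPar V τ) γ
    (K := ofPowerSeries ℤ ℂ (tay ((fun z => R (γ • z)) ∘ ofComplex ∘ cay τ)))
    ((hasExp_cay (mdiff_comp_smul hR.1 γ) τ).congr (funext fun _ => rfl))
  rw [he]
  refine ⟨?_, fun n hn => ModularCurve.ofPowerSeries_coeff_of_neg _ hn⟩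
  rw [tay_coeff_zero]
  simp only [Function.comp_apply, cay_zero, UpperHalfPlane.ofComplex_apply]

end Emb

variable {p : ℕ} [hp : Fact p.Prime]

section Fibre

variable {L : Type} [Field L] [Algebra ℚ L] [Algebra L ℂ] [IsAlgClosed L] {V : Lvl} {a : L}
  (E : EmbFamily L (V.fld L) ℂ (V.jFld L) (V.jF L - algebraMap L (V.fld L) a) V.Cos)

theorem coeff_zero_sub_algebraMap {τ : ℍ} {γ : SL(2, ℤ)} {i : V.Cos}
    (hE : E.σ i = emb (pointPar V τ) γ) {f : V.fld L} {R : ℍ → ℂ} (hR : R ∈ V.mf)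
    (h : HasExp (qp 1) R (coeffMap (algebraMap L ℂ) (f : LaurentSeries L))) (c : L) :
    (E.σ i (f - algebraMap L (V.fld L) c)).coeff 0 = R (γ • τ) - algebraMap L ℂ c ∧
      ∀ n : ℤ, n < 0 → (E.σ i (f - algebraMap L (V.fld L) c)).coeff n = 0 := by
  obtain ⟨h0, hneg⟩ := emb_point_coeff hR h τ γ
  rw [map_sub, AlgHom.commutes, FA.ModField.algebraMap_laurentC, hE]
  refine ⟨?_, fun n hn => ?_⟩
  · rw [HahnSeries.coeff_sub, h0, HahnSeries.C_apply, HahnSeries.coeff_single_same]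
  · rw [HahnSeries.coeff_sub, hneg n hn, HahnSeries.C_apply,
      HahnSeries.coeff_single_of_ne hn.ne, sub_zero]

theorem hasValue_pl {τ : ℍ} {γ : SL(2, ℤ)} {i : V.Cos} (hE : E.σ i = emb (pointPar V τ) γ)
    {f : V.fld L} {R : ℍ → ℂ} (hR : R ∈ V.mf)
    (h : HasExp (qp 1) R (coeffMap (algebraMap L ℂ) (f : LaurentSeries L))) {c : L}
    (hc : R (γ • τ) = algebraMap L ℂ c) : HasValue (E.pl i) f c := by
  obtain ⟨h0, hneg⟩ := coeff_zero_sub_algebraMap E hE hR h c
  rw [hc, sub_self] at h0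
  show AtLeast _ _ _
  rcases eq_or_ne (f - algebraMap L (V.fld L) c) 0 with hz | hz
  · exact Or.inl hz
  refine Or.inr ?_
  have hne : E.σ i (f - algebraMap L (V.fld L) c) ≠ 0 := fun hs =>
    hz ((E.σ i).toRingHom.injective (hs.trans (map_zero _).symm))
  have hord : 1 ≤ (E.σ i (f - algebraMap L (V.fld L) c)).order := by
    refine (HahnSeries.le_order_iff_forall hne).2 fun n hn => ?_
    rcases lt_or_eq_of_le (show n ≤ 0 by omega) with hlt | heq
    · exact hneg n hlt
    · rw [heq]; exact h0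
  rw [E.order_σ] at hord
  have := E.scale_pos i
  nlinarith

theorem value_eq_of_pl {τ : ℍ} {γ : SL(2, ℤ)} {i : V.Cos} (hE : E.σ i = emb (pointPar V τ) γ)
    {f : V.fld L} {R : ℍ → ℂ} (hR : R ∈ V.mf)
    (h : HasExp (qp 1) R (coeffMap (algebraMap L ℂ) (f : LaurentSeries L))) {c : L}
    (hc : HasValue (E.pl i) f c) : R (γ • τ) = algebraMap L ℂ c := by
  obtain ⟨h0, -⟩ := coeff_zero_sub_algebraMap E hE hR h c
  rw [← sub_eq_zero, ← h0]
  rcases hc with hc | hc
  · rw [hc, map_zero, HahnSeries.coeff_zero]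
  · refine HahnSeries.coeff_eq_zero_of_lt_order ?_
    rw [E.order_σ]
    have := E.scale_pos i
    nlinarith

end Fibre

/-- The inverse of a value. -/
theorem hasValue_inv {K F : Type*} [Field K] [Field F] [Algebra K F] {P : Place K F} {f : F}
    {c : K} (h : HasValue P f c) (hc : c ≠ 0) : HasValue P f⁻¹ c⁻¹ := by
  have hf0 : f ≠ 0 := fun h0 => hc (h.unique (h0 ▸ by simpa using hasValue_algebraMap P (0 : K)))
  have hord : P.ord f = 0 := by
    rcases h.atLeast with h' | h'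
    · exact absurd h' hf0
    by_contra hne
    exact hc (h.unique (hasValue_zero_iff.2 (Or.inr (by omega))))
  have h1 : AtLeast P 0 f⁻¹ := Or.inr (by rw [Place.ord_inv]; omega)
  have h2 := ((h.mul h1).smul (-c⁻¹)).mono (m := 1) (by omega)
  show AtLeast P 1 _
  convert h2 using 1
  have hcF : algebraMap K F c ≠ 0 := (_root_.map_ne_zero _).2 hc
  rw [map_neg, map_inv₀]
  field_simp
  ring

variable [Algebra (AlgebraicClosure ℚ) ℂ]

theorem algebraMap_rat (q : ℚ) :
    algebraMap Qb ℂ (algebraMap ℚ Qb q) = algebraMap ℚ ℂ q :=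
  RingHom.congr_fun (RingHom.ext_rat ((algebraMap Qb ℂ).comp (algebraMap ℚ Qb)) (algebraMap ℚ ℂ)) q

/-- The root of unity corresponding to `e(1/p)`. -/
theorem exists_zeta (p : ℕ) [Fact p.Prime] :
    ∃ ζ : Qb, IsPrimitiveRoot ζ p ∧ algebraMap Qb ℂ ζ = Wp.eta p 1 := by
  haveI : NeZero p := ⟨(Fact.out : p.Prime).ne_zero⟩
  obtain ⟨z, hz⟩ := HasEnoughRootsOfUnity.exists_primitiveRoot Qb p
  have heta : IsPrimitiveRoot (Wp.eta p 1) p := by
    have := Complex.isPrimitiveRoot_exp p (NeZero.ne p)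
    convert this using 2
    simp [Wp.eta, Wp.tpi]
  obtain ⟨i, -, hi⟩ := (hz.map_of_injective (algebraMap Qb ℂ).injective).eq_pow_of_pow_eq_one
    heta.pow_eq_one
  refine ⟨z ^ i, ?_, by rw [map_pow, hi]⟩
  refine IsPrimitiveRoot.of_map_of_injective (f := algebraMap Qb ℂ) ?_ (algebraMap Qb ℂ).injective
  rwa [map_pow, hi]

/-- The half line polynomial over the function field. -/
theorem exists_fieldPoly {ζ : Qb} (hζ : algebraMap Qb ℂ ζ = Wp.eta p 1) (hζp : IsPrimitiveRoot ζ p) :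
    ∃ F : Polynomial (levelField p Qb), F.map (algebraMap _ (LaurentSeries Qb)) = serPoly p ζ ∧
      (∀ k, HasExp (qp 1) (funCoeff p k)
        (coeffMap (algebraMap Qb ℂ) ((F.coeff k : levelField p Qb) : LaurentSeries Qb))) ∧
      ∀ (σ : GQ) k, galAut p Qb σ • F.coeff k = F.coeff k := by
  have hexp : ∀ k, HasExp (qp 1) (funCoeff p k)
      (coeffMap (algebraMap Qb ℂ) ((serPoly p ζ).coeff k)) := fun k => by
    have h := hasExp_funCoeff (p := p) k
    rw [← hζ, ← map_serPoly, Polynomial.coeff_map] at h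
    exact h
  have hmem : serPoly p ζ ∈ Polynomial.lifts (algebraMap (levelField p Qb) (LaurentSeries Qb)) :=
    (Polynomial.lifts_iff_coeff_lifts _).2 fun k =>
      ⟨⟨_, (lvlGamma0 p).mem_fld_of_modFuns (funCoeff_mem k) _ (hexp k)⟩, rfl⟩
  obtain ⟨F, hF⟩ := (Polynomial.mem_lifts _).1 hmem
  have hco : ∀ k, ((F.coeff k : levelField p Qb) : LaurentSeries Qb) = (serPoly p ζ).coeff k :=
    fun k => by rw [← hF, Polynomial.coeff_map]; rfl
  refine ⟨F, hF, fun k => by rw [hco]; exact hexp k, fun σ k => Subtype.ext ?_⟩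
  show coeffMap (σ : Qb →+* Qb) ((F.coeff k : levelField p Qb) : LaurentSeries Qb) = _
  rw [hco, ← Polynomial.coeff_map, map_serPoly]
  obtain ⟨d, -, hd⟩ := hζp.eq_pow_of_pow_eq_one (ξ := σ ζ)
    (by rw [← map_pow, hζp.pow_eq_one, map_one])
  have hd' : ¬ p ∣ d := fun hdvd => hζp.ne_one hp.out.one_lt (σ.injective (by
    rw [map_one, ← hd]; exact (hζp.pow_eq_one_iff_dvd d).2 hdvd))
  rw [show (σ : Qb →+* Qb) ζ = ζ ^ d from hd.symm, serPoly_pow hζp.pow_eq_one hd']

/-- **The rational place of a stable line.** -/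
theorem exists_linePlace (W : WeierstrassCurve ℚ) [W.IsElliptic] (h0 : W.j ≠ 0) (h1728 : W.j ≠ 1728)
    {C : AddSubgroup (W.toAffine⁄Qb).Point} (hC : Nat.card C = p)
    (hst : ∀ σ : GQ, ∀ Q ∈ C, σ • Q ∈ C) {ζ : Qb} (hζ : algebraMap Qb ℂ ζ = Wp.eta p 1)
    (hζp : IsPrimitiveRoot ζ p) :
    ∃ (v : Place Qb (levelField p Qb)) (F : Polynomial (levelField p Qb))
      (P : (W.toAffine⁄Qb).Point), P ∈ C ∧ P ≠ 0 ∧
      (∀ σ : GQ, galAut p Qb σ • v = v) ∧
      HasValue v (upJ (L := Qb) p)⁻¹ (algebraMap ℚ Qb W.j⁻¹) ∧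
      F.map (algebraMap _ (LaurentSeries Qb)) = serPoly p ζ ∧
      (∀ k, HasValue v (F.coeff k) ((linePoly p W P).coeff k)) ∧
      Set.InjOn (lineRoot W P) (half p : Set ℕ) := by
  classical
  haveI : NeZero p := ⟨hp.out.ne_zero⟩
  haveI : Finite C := Nat.finite_of_card_ne_zero (hC ▸ hp.out.ne_zero)
  haveI : Nontrivial C := Finite.one_lt_card_iff_nontrivial.1 (hC ▸ hp.out.one_lt)
  obtain ⟨⟨P, hPC⟩, hne⟩ := exists_ne (0 : C)
  have hP0 : P ≠ 0 := fun h => hne (Subtype.ext h)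
  have hP : p • P = 0 := by
    haveI : Finite C := Nat.finite_of_card_ne_zero (hC ▸ hp.out.ne_zero)
    have := congrArg Subtype.val (card_nsmul_eq_zero' (x := (⟨P, hPC⟩ : C)))
    rwa [hC] at this
  set a : Qb := algebraMap ℚ Qb W.j with ha
  obtain ⟨τ, hτ⟩ := exists_jfun_eq (algebraMap ℚ ℂ W.j)
  have hτ0 : jfun τ ≠ 0 := by rw [hτ]; exact (_root_.map_ne_zero _).2 h0
  have hτ1 : jfun τ ≠ 1728 := by
    rw [hτ, ← map_ofNat (algebraMap ℚ ℂ) 1728]
    exact fun h => h1728 ((algebraMap ℚ ℂ).injective h)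
  have hs := scaleU_ne_zero hτ0 hτ1
  have hτa : jfun τ = algebraMap Qb ℂ a := by rw [ha, algebraMap_rat, hτ]
  -- the line over `ℂ`
  let ι : Qb →ₐ[ℚ] ℂ := AlgHom.mk (algebraMap Qb ℂ) algebraMap_rat
  let φC := Affine.Point.map (W' := W.toAffine) ι
  have hφC0 : φC P ≠ 0 := fun h => hP0 (Affine.Point.map_injective (f := ι) (h.trans (map_zero φC).symm))
  obtain ⟨v₀, hv₀, hroot⟩ := exists_vec_of_point (p := p) W hτ h0 h1728 (φC P)
    (by rw [← map_nsmul, hP, map_zero]) hφC0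
  have hroot' : ∀ m ∈ half p, algebraMap Qb ℂ (lineRoot W P m) = uFun p ((m : ℤ) • v₀) τ :=
    fun m hm => by
    have hne := nsmul_ne_zero hP hP0 (half_cast_ne_zero hm)
    have hne' : m • φC P ≠ 0 := fun h => hne (Affine.Point.map_injective (f := ι)
      ((map_nsmul φC m P).trans (h.trans (map_zero φC).symm)))
    rw [← hroot m hne', ← map_nsmul]
    refine (map_uVal W ι _).trans (congrArg (uVal W) ?_)
    obtain ⟨x, y, hxy, he⟩ := exists_some_of_ne_zero hne
    rw [he]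
    rfl
  have hpoly : (linePoly p W P).map (algebraMap Qb ℂ) = funPoly p v₀ τ := by
    simp only [linePoly, funPoly, Polynomial.map_prod, Polynomial.map_sub, Polynomial.map_X,
      Polynomial.map_C]
    exact Finset.prod_congr rfl fun m hm => by rw [hroot' m hm]
  have hinj : Set.InjOn (lineRoot W P) (half p : Set ℕ) := fun m hm m' hm' h =>
    uFun_injOn hs hv₀ hm hm' (by
      show uFun p ((m : ℤ) • v₀) τ = uFun p ((m' : ℤ) • v₀) τ
      rw [← hroot' m hm, ← hroot' m' hm', h])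
  -- a matrix with lower row on the line
  obtain ⟨g, d, hd, hg1, hg2⟩ : ∃ (g : SL(2, ℤ)) (d : ZMod p), d ≠ 0 ∧
      ((g 1 0 : ℤ) : ZMod p) = d * v₀.1 ∧ ((g 1 1 : ℤ) : ZMod p) = d * v₀.2 := by
    by_cases h1 : (v₀.1 : ZMod p) = 0
    · have h2 : (v₀.2 : ZMod p) ≠ 0 := fun h2 => hv₀
        ⟨(ZMod.intCast_zmod_eq_zero_iff_dvd _ p).1 h1, (ZMod.intCast_zmod_eq_zero_iff_dvd _ p).1 h2⟩
      exact ⟨1, (v₀.2 : ZMod p)⁻¹, inv_ne_zero h2, by simp [h1], by simp [inv_mul_cancel₀ h2]⟩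
    · refine ⟨⟨!![0, -1; 1, ((((v₀.1 : ZMod p))⁻¹ * v₀.2).val : ℤ)], by simp [Matrix.det_fin_two_of]⟩,
        (v₀.1 : ZMod p)⁻¹, inv_ne_zero h1, ?_, ?_⟩
      · simp [inv_mul_cancel₀ h1]
      · simp
  let V := lvlGamma0 p
  let E := V.pointFam Qb a τ hτa 1 (one_smul _ τ) 1 one_pos (order_jLocal_general hτ0 hτ1)
    (rotUnit_one τ)
  let i₀ : V.Cos := QuotientGroup.mk g⁻¹
  have hE : ∀ i, E.σ i = emb (pointPar V τ) (Quotient.out i)⁻¹ := fun _ => rfl
  have hE₀ : E.σ i₀ = emb (pointPar V τ) g := by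
    show embCos (pointPar V τ) i₀ = _
    rw [Level.embCos_mk, inv_inv]
  obtain ⟨F, hFmap, hFexp, hFgal⟩ := exists_fieldPoly hζ hζp
  have hrow : funPoly p (0, 1) (g • τ) = funPoly p v₀ τ := by
    rw [funPoly_smul, funPoly_congr (v := v₀) hd (by simpa [rowMul] using hg1)
      (by simpa [rowMul] using hg2)]
  have hval : ∀ k, HasValue (E.pl i₀) (F.coeff k) ((linePoly p W P).coeff k) := fun k =>
    hasValue_pl E hE₀ (funCoeff_mem k) (hFexp k) (by
      rw [funCoeff, hrow, ← hpoly, Polynomial.coeff_map])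
  have hjexp : HasExp (qp 1) jfun
      (coeffMap (algebraMap Qb ℂ) ((upJ (L := Qb) p : levelField p Qb) : LaurentSeries Qb)) := by
    rw [coe_upJ, coeffMap_jqModC]; exact hasExp_jfun
  have hj : HasValue (E.pl i₀) (upJ (L := Qb) p) a :=
    hasValue_pl E hE₀ V.jfun_mem hjexp (by rw [jfun_smul, hτa])
  have ha0 : a ≠ 0 := (_root_.map_ne_zero _).2 h0
  refine ⟨E.pl i₀, F, P, hPC, hP0, fun σ => ?_, ?_, hFmap, hval, hinj⟩
  swap
  · rw [map_inv₀]; exact hasValue_inv hj ha0
  -- Galois invariance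
  let v₁ : Place Qb (levelField p Qb) := E.pl i₀
  have hj₁ : HasValue v₁ (upJ (L := Qb) p) a := hj
  have hval₁ : ∀ k, HasValue v₁ (F.coeff k) ((linePoly p W P).coeff k) := hval
  show galAut p Qb σ • v₁ = v₁
  have hσj : HasValue (galAut p Qb σ • v₁) (upJ (L := Qb) p) a := by
    have h := hasValue_gal p Qb σ hj₁
    rw [show galAut p Qb σ • (upJ (L := Qb) p) = upJ (L := Qb) p from Subtype.ext (by
      show coeffMap (σ : Qb →+* Qb) (jqModC Qb) = jqModC Qb
      rw [coeffMap_jqModC]), show σ a = a from σ.commutes W.j] at h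
    exact h
  let w : Place Qb (V.fld Qb) := galAut p Qb σ • v₁
  have hjF : (upJ (L := Qb) p) = V.jF Qb := Subtype.ext (V.coe_jF Qb).symm
  have hw : HasValue w (V.jF Qb) a := by rw [← hjF]; exact hσj
  obtain ⟨i, hi⟩ := E.pl_surjective w (by
    rcases hw with h | h
    · rw [sub_eq_zero] at h
      exact absurd (h ▸ V.jF_transcendental Qb) (fun h' => h' (isAlgebraic_algebraMap a))
    · exact lt_of_lt_of_le zero_lt_one h)
  set γ := (Quotient.out i)⁻¹ with hγ
  have hpolyγ : funPoly p (0, 1) (γ • τ) = funPoly p v₀ τ := by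
    rw [← hpoly]
    refine Polynomial.ext fun k => ?_
    have h := hasValue_gal p Qb σ (hval₁ k)
    rw [hFgal σ k] at h
    have hfix : σ ((linePoly p W P).coeff k) = (linePoly p W P).coeff k := by
      conv_rhs => rw [← gal_linePoly_of_stable hC hst hPC hP0 σ, Polynomial.coeff_map]
      rfl
    rw [hfix] at h
    rw [show galAut p Qb σ • v₁ = E.pl i from hi.symm] at h
    rw [Polynomial.coeff_map]
    exact value_eq_of_pl E (hE i) (funCoeff_mem k) (hFexp k) h
  have hγdet := congrArg (Int.cast : ℤ → ZMod p) (Wp.det_int γ)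
  push_cast at hγdet
  have hdet := det_eq_zero_of_funPoly_eq hs (v := rowMul (0, 1) γ) (w := v₀) (fun hd => by
    have h1 := (ZMod.intCast_zmod_eq_zero_iff_dvd _ p).2 hd.1
    have h2 := (ZMod.intCast_zmod_eq_zero_iff_dvd _ p).2 hd.2
    simp only [rowMul, zero_mul, zero_add, one_mul] at h1 h2
    rw [h1, h2] at hγdet
    simp at hγdet) hv₀ (by rw [← funPoly_smul]; exact hpolyγ)
  simp only [rowMul, zero_mul, zero_add, one_mul] at hdet
  have hmem : γ * g⁻¹ ∈ CongruenceSubgroup.Gamma0 p := by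
    rw [CongruenceSubgroup.Gamma0_mem]
    have e : (γ * g⁻¹) 1 0 = γ 1 0 * g 1 1 - γ 1 1 * g 1 0 := by
      simp [Matrix.SpecialLinearGroup.coe_inv, Matrix.adjugate_fin_two, Matrix.mul_apply,
        Fin.sum_univ_two]
      ring
    rw [e]
    push_cast
    rw [hg1, hg2]
    linear_combination d * hdet
  have hσeq : E.σ i = E.σ i₀ := by
    rw [hE i, hE₀, ← hγ, show γ = (γ * g⁻¹) * g by rw [inv_mul_cancel_right]]
    exact emb_left_grp (pointPar V τ) hmem g
  show w = E.pl i₀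
  rw [← hi, E.σ_inj hσeq]

end FA.Mazur.Moduli

end
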