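import Fermat.Agent.Mazur.Moduli.Multiples
import Fermat.Agent.ModField.Elliptic

/-!
# The torsion abscissae as functions of weight zero

`uFun p v τ` is `-36 E₄ E₆/((2πi)² Δ)` times the Weierstrass function of `ℤτ + ℤ` at
`(v₀ τ + v₁)/p`.  It is an abscissa of a point of order `p` of
`y² = x³ - 27 j (j - 1728) x - 54 j (j - 1728)²` and is permuted by `SL₂(ℤ)`.
-/

set_option autoImplicit false
set_option linter.unusedSectionVars false
set_option linter.style.haveILetI false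

noncomputable section

open UpperHalfPlane hiding I
open Complex PeriodPair WeierstrassCurve FA.EC FA.ModField
open scoped MatrixGroups Real

namespace FA.Mazur.Moduli

set_option maxHeartbeats 1000000

/-- The lattice `ℤτ + ℤ`. -/
def tauPair (τ : ℍ) : PeriodPair where
  ω₁ := τ
  ω₂ := 1
  indep := by
    rw [LinearIndependent.pair_iff]
    intro s t h
    have hi := congrArg Complex.im h
    have hr := congrArg Complex.re h
    simp at hi hr
    have hs : s = 0 := hi.resolve_right τ.im_ne_zero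
    simp [hs] at hr
    exact ⟨hs, hr⟩

theorem mem_tauPair {τ : ℍ} {w : ℂ} :
    w ∈ (tauPair τ).lattice ↔ ∃ m n : ℤ, (m : ℂ) * τ + n = w := by
  rw [PeriodPair.mem_lattice]
  simp [tauPair]

/-- The curve with invariant `j` normalised by the weight zero factor. -/
def jCurve {R : Type*} [CommRing R] (j : R) : WeierstrassCurve R :=
  ⟨0, 0, 0, -27 * (j * (j - 1728)), -54 * (j * (j - 1728) ^ 2)⟩

theorem jCurve_map {R S : Type*} [CommRing R] [CommRing S] (f : R →+* S) (j : R) :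
    (jCurve j).map f = jCurve (f j) := by
  ext <;> simp [jCurve, map_ofNat]

theorem jCurve_Δ {R : Type*} [CommRing R] (j : R) :
    (jCurve j).Δ = 2176782336 * (j ^ 2 * (j - 1728) ^ 3) := by
  simp only [jCurve, WeierstrassCurve.Δ, WeierstrassCurve.b₂, WeierstrassCurve.b₄,
    WeierstrassCurve.b₆, WeierstrassCurve.b₈]
  ring

theorem jCurve_isElliptic {K : Type*} [Field K] [CharZero K] {j : K} (h0 : j ≠ 0) (h1 : j ≠ 1728) :
    (jCurve j).IsElliptic := by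
  refine ⟨isUnit_iff_ne_zero.2 ?_⟩
  rw [jCurve_Δ]
  exact mul_ne_zero (by norm_num) (mul_ne_zero (pow_ne_zero _ h0) (pow_ne_zero _ (sub_ne_zero.2 h1)))

/-- The weight zero factor. -/
def wFac (τ : ℍ) : ℂ :=
  -(ModularForm.E₄ τ * ModularForm.E₆ τ / ModularForm.discriminant τ)

/-- The scale from the lattice to `jCurve`. -/
def scaleU (τ : ℍ) : ℂ := -9 / (π : ℂ) ^ 2 * wFac τ

theorem G_tauPair (τ : ℍ) {k : ℕ} (hk : 3 ≤ k) :
    (tauPair τ).G k = riemannZeta k * (2 * ModularForm.E hk τ) := by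
  have h := tsum_eisSummand_eq_riemannZeta_mul_eisensteinSeries hk τ
  have hE : eisensteinSeries (N := 1) 0 k τ = 2 * ModularForm.E hk τ := by
    show _ = 2 * ((1 / 2 : ℂ) * eisensteinSeries (N := 1) 0 k τ)
    ring
  rw [← hE, ← h]
  set e : (tauPair τ).lattice ≃ (Fin 2 → ℤ) :=
    (tauPair τ).latticeEquivProd.toEquiv.trans (finTwoArrowEquiv ℤ).symm
  rw [PeriodPair.G, ← e.symm.tsum_eq]
  refine tsum_congr fun v => ?_
  have he : ((e.symm v : (tauPair τ).lattice) : ℂ) = v 0 * τ + v 1 := by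
    show (((tauPair τ).latticeEquivProd.symm (v 0, v 1) : (tauPair τ).lattice) : ℂ) = _
    rw [PeriodPair.latticeEquiv_symm_apply]
    simp [tauPair]
  rw [he, EisensteinSeries.eisSummand, zpow_neg, zpow_natCast]

theorem riemannZeta_six : riemannZeta 6 = (π : ℂ) ^ 6 / 945 := by
  have h := riemannZeta_two_mul_nat (k := 3) (by norm_num)
  rw [show bernoulli (2 * 3) = 1 / 42 by decide +kernel] at h
  norm_num [Nat.factorial] at h
  rw [h]
  ring

theorem g₂_tauPair (τ : ℍ) : (tauPair τ).g₂ = 4 * (π : ℂ) ^ 4 / 3 * ModularForm.E₄ τ := by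
  rw [PeriodPair.g₂, G_tauPair τ (by norm_num : 3 ≤ 4), Nat.cast_ofNat, riemannZeta_four]
  ring

theorem g₃_tauPair (τ : ℍ) : (tauPair τ).g₃ = 8 * (π : ℂ) ^ 6 / 27 * ModularForm.E₆ τ := by
  rw [PeriodPair.g₃, G_tauPair τ (by norm_num : 3 ≤ 6), Nat.cast_ofNat, riemannZeta_six]
  ring

theorem jCurve_a₄ (τ : ℍ) :
    (jCurve (jfun τ)).a₄ = -scaleU τ ^ 2 * (tauPair τ).g₂ / 4 := by
  show -27 * (jfun τ * (jfun τ - 1728)) = _
  rw [jfun_sub_1728, g₂_tauPair, scaleU, wFac, jfun]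
  have hπ : (π : ℂ) ≠ 0 := ofReal_ne_zero.2 Real.pi_ne_zero
  have hΔ := ModularForm.discriminant_ne_zero τ
  field_simp
  ring

theorem jCurve_a₆ (τ : ℍ) :
    (jCurve (jfun τ)).a₆ = -scaleU τ ^ 3 * (tauPair τ).g₃ / 4 := by
  show -54 * (jfun τ * (jfun τ - 1728) ^ 2) = _
  rw [jfun_sub_1728, g₃_tauPair, scaleU, wFac, jfun]
  have hπ : (π : ℂ) ≠ 0 := ofReal_ne_zero.2 Real.pi_ne_zero
  have hΔ := ModularForm.discriminant_ne_zero τ
  field_simp
  ring

theorem scaleU_ne_zero {τ : ℍ} (h0 : jfun τ ≠ 0) (h1 : jfun τ ≠ 1728) : scaleU τ ≠ 0 := by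
  have hj := sub_ne_zero.2 h1
  rw [jfun_sub_1728] at hj
  have e4 : ModularForm.E₄ τ ≠ 0 := fun h => h0 (by simp [jfun, h])
  have e6 : ModularForm.E₆ τ ≠ 0 := fun h => hj (by simp [h])
  exact mul_ne_zero (div_ne_zero (by norm_num) (pow_ne_zero 2 (ofReal_ne_zero.2 Real.pi_ne_zero)))
    (neg_ne_zero.2 (div_ne_zero (mul_ne_zero e4 e6) (ModularForm.discriminant_ne_zero τ)))

/-- The argument of a torsion vector. -/
def argV (p : ℕ) (v : ℤ × ℤ) (τ : ℍ) : ℂ := ((v.1 : ℂ) * τ + v.2) / p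

/-- The torsion abscissa of weight zero. -/
def uFun (p : ℕ) (v : ℤ × ℤ) (τ : ℍ) : ℂ := scaleU τ * ℘[tauPair τ] (argV p v τ)

variable {p : ℕ} [hp : Fact p.Prime]

theorem argV_mem_iff (v : ℤ × ℤ) (τ : ℍ) :
    argV p v τ ∈ (tauPair τ).lattice ↔ (p : ℤ) ∣ v.1 ∧ (p : ℤ) ∣ v.2 := by
  have hp0 : (p : ℂ) ≠ 0 := Nat.cast_ne_zero.2 hp.out.ne_zero
  rw [mem_tauPair]
  constructor
  · rintro ⟨m, n, h⟩
    rw [argV, eq_div_iff hp0] at h
    have hi := congrArg Complex.im h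
    have hr := congrArg Complex.re h
    simp at hi hr
    have h1 : (m : ℝ) * p = v.1 := mul_right_cancel₀ τ.im_ne_zero (by linarith)
    rw [← h1] at hr
    have h2 : (n : ℝ) * p = v.2 := by linear_combination hr
    exact ⟨⟨m, by rw [mul_comm]; exact_mod_cast h1.symm⟩,
      ⟨n, by rw [mul_comm]; exact_mod_cast h2.symm⟩⟩
  · rintro ⟨⟨m, hm⟩, ⟨n, hn⟩⟩
    refine ⟨m, n, ?_⟩
    rw [argV, eq_div_iff hp0, hm, hn]
    push_cast
    ring

theorem mul_argV_mem (v : ℤ × ℤ) (τ : ℍ) : (p : ℂ) * argV p v τ ∈ (tauPair τ).lattice :=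
  mem_tauPair.2 ⟨v.1, v.2, by
    rw [argV, mul_div_cancel₀ _ (Nat.cast_ne_zero.2 hp.out.ne_zero)]⟩

theorem argV_add (v w : ℤ × ℤ) (τ : ℍ) : argV p (v + w) τ = argV p v τ + argV p w τ := by
  simp only [argV, Prod.fst_add, Prod.snd_add]; push_cast; ring

theorem argV_smul (m : ℤ) (v : ℤ × ℤ) (τ : ℍ) : argV p (m • v) τ = (m : ℂ) * argV p v τ := by
  simp only [argV, Prod.smul_fst, Prod.smul_snd, smul_eq_mul]; push_cast; ring

theorem uFun_neg (v : ℤ × ℤ) (τ : ℍ) : uFun p (-v) τ = uFun p v τ := by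
  rw [uFun, uFun, show argV p (-v) τ = -argV p v τ by
    simp only [argV, Prod.fst_neg, Prod.snd_neg]; push_cast; ring, weierstrassP_neg]

theorem uFun_congr {v v' : ℤ × ℤ} (h1 : (p : ℤ) ∣ v'.1 - v.1) (h2 : (p : ℤ) ∣ v'.2 - v.2) (τ : ℍ) :
    uFun p v' τ = uFun p v τ := by
  have hl : argV p (v' - v) τ ∈ (tauPair τ).lattice := (argV_mem_iff _ τ).2 ⟨h1, h2⟩
  have e := argV_add (p := p) v (v' - v) τ
  rw [add_sub_cancel] at e
  rw [uFun, uFun, e]
  exact congrArg _ ((tauPair τ).weierstrassP_add_coe _ ⟨_, hl⟩)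

/-- Abscissae of vectors which are not proportional up to sign differ. -/
theorem eq_or_of_uFun_eq {τ : ℍ} (hs : scaleU τ ≠ 0) {v v' : ℤ × ℤ}
    (hv : ¬((p : ℤ) ∣ v.1 ∧ (p : ℤ) ∣ v.2)) (hv' : ¬((p : ℤ) ∣ v'.1 ∧ (p : ℤ) ∣ v'.2))
    (h : uFun p v τ = uFun p v' τ) :
    ((p : ℤ) ∣ v'.1 - v.1 ∧ (p : ℤ) ∣ v'.2 - v.2) ∨
      ((p : ℤ) ∣ v'.1 + v.1 ∧ (p : ℤ) ∣ v'.2 + v.2) := by
  rcases Weier.eq_or_eq_neg_of_eq _ (fun e => hv ((argV_mem_iff v τ).1 e))
    (fun e => hv' ((argV_mem_iff v' τ).1 e)) (mul_left_cancel₀ hs h) with e | e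
  · refine Or.inl ((argV_mem_iff (v' - v) τ).1 ?_)
    have e' := argV_add (p := p) (v' - v) v τ
    rw [sub_add_cancel] at e'
    rwa [e', add_sub_cancel_right] at e
  · exact Or.inr ((argV_mem_iff (v' + v) τ).1 (by rwa [argV_add]))

/-- Scaling a lattice. -/
theorem weierstrassP_scale {L L' : PeriodPair} {c : ℂ} (hc : c ≠ 0)
    (h : ∀ l : ℂ, c * l ∈ L'.lattice ↔ l ∈ L.lattice) (z : ℂ) :
    ℘[L'] (c * z) = (c ^ 2)⁻¹ * ℘[L] z := by
  let e : L.lattice ≃ L'.lattice :=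
    { toFun := fun l => ⟨c * l, (h _).2 l.2⟩
      invFun := fun l => ⟨c⁻¹ * l, (h _).1 (by rw [mul_inv_cancel_left₀ hc]; exact l.2)⟩
      left_inv := fun l => Subtype.ext (inv_mul_cancel_left₀ hc _)
      right_inv := fun l => Subtype.ext (mul_inv_cancel_left₀ hc _) }
  rw [weierstrassP, weierstrassP, ← e.tsum_eq, ← tsum_mul_left]
  refine tsum_congr fun l => ?_
  show 1 / (c * z - c * (l : ℂ)) ^ 2 - 1 / (c * (l : ℂ)) ^ 2 = _
  rw [← mul_sub, mul_pow, mul_pow, one_div, one_div, one_div, one_div, mul_inv, mul_inv, ← mul_sub]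

theorem wFac_smul (g : SL(2, ℤ)) (τ : ℍ) :
    wFac (g • τ) = (denom g τ ^ 2)⁻¹ * wFac τ := by
  have hm : ∀ {k : ℤ} (F : ModularForm 𝒮ℒ k), F (g • τ) = denom g τ ^ k * F τ := fun {k} F =>
    (slash_eq_iff_smul g).1 (SlashInvariantForm.slash_action_eqn F (g : GL (Fin 2) ℝ) ⟨g, rfl⟩) τ
  have hd : ModularForm.discriminant (g • τ) = denom g τ ^ (12 : ℤ) * ModularForm.discriminant τ :=
    (slash_eq_iff_smul g).1 (SlashInvariantForm.slash_action_eqn CuspForm.discriminant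
      (g : GL (Fin 2) ℝ) ⟨g, rfl⟩) τ
  rw [wFac, wFac, hm, hm, hd]
  have := denom_ne_zero g τ
  have := ModularForm.discriminant_ne_zero τ
  field_simp

/-- The row vector times a matrix. -/
def rowMul (v : ℤ × ℤ) (g : SL(2, ℤ)) : ℤ × ℤ :=
  (v.1 * g 0 0 + v.2 * g 1 0, v.1 * g 0 1 + v.2 * g 1 1)

/-- **The transformation law.** -/
theorem uFun_smul (v : ℤ × ℤ) (g : SL(2, ℤ)) (τ : ℍ) :
    uFun p v (g • τ) = uFun p (rowMul v g) τ := by
  set c := denom g τ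
  have hc : c ≠ 0 := denom_ne_zero g τ
  have hdet : g 0 0 * g 1 1 - g 0 1 * g 1 0 = 1 := by
    have := Matrix.SpecialLinearGroup.det_coe g
    rwa [Matrix.det_fin_two] at this
  have hcd : c = (g 1 0 : ℂ) * τ + g 1 1 := by simp [c, denom]
  have hdetC : (g 0 0 : ℂ) * g 1 1 - g 0 1 * g 1 0 = 1 := by exact_mod_cast hdet
  have htau : ((g • τ : ℍ) : ℂ) * c = (g 0 0 : ℂ) * τ + g 0 1 := by
    rw [UpperHalfPlane.coe_specialLinearGroup_apply]
    simp only [eq_intCast, Complex.ofReal_intCast]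
    rw [← hcd, div_mul_cancel₀ _ hc]
  have hL : ∀ l : ℂ, c * l ∈ (tauPair τ).lattice ↔ l ∈ (tauPair (g • τ)).lattice := by
    intro l
    rw [mem_tauPair, mem_tauPair]
    constructor
    · rintro ⟨m, n, h⟩
      refine ⟨m * g 1 1 - n * g 1 0, n * g 0 0 - m * g 0 1, mul_left_cancel₀ hc ?_⟩
      push_cast
      linear_combination h + ((m : ℂ) * g 1 1 - n * g 1 0) * htau +
        ((n : ℂ) * g 0 0 - m * g 0 1) * hcd + (m * (τ : ℂ) + n) * hdetC
    · rintro ⟨m, n, h⟩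
      refine ⟨m * g 0 0 + n * g 1 0, m * g 0 1 + n * g 1 1, ?_⟩
      push_cast
      rw [← h]
      linear_combination -(m : ℂ) * htau - (n : ℂ) * hcd
  have harg : argV p (rowMul v g) τ = c * argV p v (g • τ) := by
    simp only [argV, rowMul]
    push_cast
    rw [mul_div_assoc']
    congr 1
    linear_combination -(v.1 : ℂ) * htau - (v.2 : ℂ) * hcd
  have hP := weierstrassP_scale hc hL (argV p v (g • τ))
  rw [uFun, uFun, harg, hP, scaleU, scaleU, wFac_smul]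
  ring

end FA.Mazur.Moduli

end
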